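import Fermat.Agent.CFT.Local.Tower
import Fermat.Agent.CFT.Coh.DualityMain

/-!
# Local duality at a place of `ℚ̄` over a prime number, coefficients mod an odd prime `p`

`localData`: the output of `CFT/Local`, consumed by the global theory (`CFT/Global/Setup`,
`LocalCup`, `Recip`, `Devissage`).
-/

set_option autoImplicit false

noncomputable section

open NumberField IsLocalRing Fermat.CFT.Coh
open scoped Pointwise

namespace Fermat.CFT

local notation "ℚbar" => AlgebraicClosure ℚ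
local notation "Γℚ" => (AlgebraicClosure ℚ ≃ₐ[ℚ] AlgebraicClosure ℚ)

/-- An auxiliary prime at which `ℓ` has order `p`. -/
lemma exists_aux_prime (p : ℕ) [hp : Fact p.Prime] (h2 : 2 < p) {ℓ : ℕ} (hℓ : 1 < ℓ) :
    ∃ q : ℕ, q.Prime ∧ ¬ q ∣ ℓ ∧ orderOf (ℓ : ZMod q) = p := by
  set S := ∑ i ∈ Finset.range p, ℓ ^ i with hS
  have hgt : p < S := by
    have h1 : ∀ i ∈ Finset.range p, 1 ≤ ℓ ^ i := fun i _ => Nat.one_le_pow _ _ (by omega)
    have h3 : ∑ _i ∈ Finset.range p, 1 < S :=
      Finset.sum_lt_sum h1 ⟨1, Finset.mem_range.mpr hp.out.one_lt, by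
        rw [pow_one]; exact hℓ⟩
    simpa using h3
  have hgeom : ∀ (R : Type) [CommRing R], (S : R) * ((ℓ : R) - 1) = (ℓ : R) ^ p - 1 := fun R _ => by
    rw [hS]; push_cast; exact geom_sum_mul _ _
  -- `S = 1 + ℓ + ⋯ + ℓ ^ (p - 1)` is not a power of `p`
  obtain ⟨q, hq, hqS, hqp⟩ : ∃ q, q.Prime ∧ q ∣ S ∧ q ≠ p := by
    by_contra hno
    push Not at hno
    have hS0 : S ≠ 0 := by omega
    obtain ⟨j, hj⟩ : ∃ j, S = p ^ j :=
      ⟨_, Nat.eq_prime_pow_of_unique_prime_dvd hS0 fun {d} hd hd' => hno d hd hd'⟩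
    have hj2 : 2 ≤ j := by
      rcases j with _ | _ | j
      · rw [hj] at hgt; simp at hgt; have := hp.out.two_le; omega
      · rw [hj] at hgt; simp at hgt
      · omega
    have hp2 : p ^ 2 ∣ S := hj ▸ pow_dvd_pow p hj2
    have hp1 : p ∣ S := (dvd_pow_self p two_ne_zero).trans hp2
    -- `ℓ ≡ 1` modulo `p`
    have hl1 : (ℓ : ZMod p) = 1 := by
      have h := hgeom (ZMod p)
      rw [(ZMod.natCast_eq_zero_iff _ _).mpr hp1, zero_mul, ZMod.pow_card, eq_comm,
        sub_eq_zero] at h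
      exact h
    obtain ⟨t, ht⟩ : ∃ t, ℓ = 1 + p * t := by
      have h := (ZMod.natCast_eq_natCast_iff' ℓ 1 p).mp (by simpa using hl1)
      rw [Nat.one_mod_eq_one.mpr hp.out.ne_one] at h
      exact ⟨ℓ / p, by have := Nat.div_add_mod ℓ p; omega⟩
    have hpp : (p : ZMod (p ^ 2)) * p = 0 := by
      rw [← Nat.cast_mul, ← pow_two, ZMod.natCast_self]
    have hpow : ∀ i : ℕ, (ℓ : ZMod (p ^ 2)) ^ i = 1 + (i : ZMod (p ^ 2)) * p * t := fun i => by
      induction i with
      | zero => simp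
      | succ i ih =>
        rw [pow_succ (ℓ : ZMod (p ^ 2)) i, ih, ht]
        push_cast
        linear_combination (i : ZMod (p ^ 2)) * t * t * hpp
    -- so `S ≡ p` modulo `p ^ 2`
    have hsum : ((S : ℕ) : ZMod (p ^ 2)) = p := by
      rw [hS]
      push_cast
      simp only [hpow, Finset.sum_add_distrib, Finset.sum_const, Finset.card_range, nsmul_one,
        ← Finset.sum_mul, add_eq_left]
      obtain ⟨k, hk⟩ : p ∣ ∑ i ∈ Finset.range p, i :=
        ((hp.out.dvd_mul).mp (Finset.sum_range_id_mul_two p ▸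
          dvd_mul_right p (p - 1))).resolve_right
          fun h => by have := Nat.le_of_dvd two_pos h; omega
      rw [← Nat.cast_sum, hk]
      push_cast
      linear_combination (k : ZMod (p ^ 2)) * t * hpp
    rw [(ZMod.natCast_eq_zero_iff _ _).mpr hp2, eq_comm, ZMod.natCast_eq_zero_iff] at hsum
    have := Nat.le_of_dvd hp.out.pos hsum
    nlinarith
  have : Fact q.Prime := ⟨hq⟩
  refine ⟨q, hq, fun h => ?_, orderOf_eq_prime ?_ fun h => hqp ?_⟩
  · have hq0 : (ℓ : ZMod q) = 0 := (ZMod.natCast_eq_zero_iff _ _).mpr h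
    have h1 : (S : ZMod q) = 1 := by
      rw [hS, Nat.cast_sum, Finset.sum_eq_single 0]
      · simp
      · intro i _ hi; simp [hi, hq0]
      · intro hi; simp [hp.out.pos] at hi
    rw [(ZMod.natCast_eq_zero_iff _ _).mpr hqS] at h1
    exact zero_ne_one h1
  · have h := hgeom (ZMod q)
    rw [(ZMod.natCast_eq_zero_iff _ _).mpr hqS, zero_mul, eq_comm, sub_eq_zero] at h
    exact h
  · have h1 : (S : ZMod q) = (p : ZMod q) := by rw [hS, Nat.cast_sum]; simp [h]
    rw [(ZMod.natCast_eq_zero_iff _ _).mpr hqS, eq_comm, ZMod.natCast_eq_zero_iff] at h1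
    exact (Nat.prime_dvd_prime_iff_eq hq hp.out).mp h1

variable {A : ValuationSubring ℚbar} {ℓ : ℕ}

open Polynomial in
/-- On roots of unity prime to `ℓ` a decomposition element is a power of Frobenius. -/
lemma exists_cycChar_eq_pow (hℓ : ℓ.Prime) (hA : A.LiesOverPrime ℓ) {q : ℕ} [Fact q.Prime]
    (hql : q ≠ ℓ) {n : ℕ} (hn : 0 < n) (hord : (ℓ : ZMod q) ^ n = 1) {g : Γℚ}
    (hg : g ∈ A.decompositionSubgroup ℚ) :
    ∃ k : ℕ, ((cycChar q g : (ZMod q)ˣ) : ZMod q) = (ℓ : ZMod q) ^ k := by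
  obtain ⟨z, hz⟩ := exists_primitiveRoot_qbar (q := q)
  let w : 𝓞 ℚbar := ⟨z, hz.isIntegral (Nat.Prime.pos Fact.out)⟩
  have hzq : w ^ q = 1 := RingOfIntegers.ext (by push_cast; exact hz.pow_eq_one)
  have := charP_residueField hℓ hA
  have : Fact ℓ.Prime := ⟨hℓ⟩
  set zb := residue A (intToPlace A w)
  -- `P`, the product over the Frobenius orbit of `ζ_q`, has coefficients in the prime field
  set P : (ResidueField A)[X] := ∏ k ∈ Finset.range n, (X - C (zb ^ ℓ ^ k)) with hP
  have hzn : zb ^ ℓ ^ n = zb := by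
    rw [← map_pow, ← map_pow]
    refine congrArg _ (congrArg _ ?_)
    have h1 : ℓ ^ n % q = 1 := by
      have h := (ZMod.natCast_eq_natCast_iff' (ℓ ^ n) 1 q).mp (by push_cast; exact hord)
      rwa [Nat.one_mod_eq_one.mpr (Nat.Prime.ne_one Fact.out)] at h
    rw [← Nat.div_add_mod (ℓ ^ n) q, h1, pow_add, pow_mul, hzq, one_pow, one_mul, pow_one]
  have hfix : P.map (frobenius (ResidueField A) ℓ) = P := by
    rw [hP, Polynomial.map_prod]
    simp only [Polynomial.map_sub, map_X, map_C, frobenius_def, ← pow_mul, ← pow_succ]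
    obtain ⟨m, rfl⟩ : ∃ m, n = m + 1 := ⟨n - 1, by omega⟩
    rw [Finset.prod_range_succ, hzn]
    conv_rhs => rw [Finset.prod_range_succ', pow_zero, pow_one]
  set gb : ResidueField A →+* ResidueField A :=
    MulSemiringAction.toRingHom _ (ResidueField A) (⟨g, hg⟩ : A.decompositionSubgroup ℚ)
  have hcoef : P.map gb = P := by
    ext i
    rw [coeff_map]
    have hc : P.coeff i ^ ℓ = P.coeff i := by
      conv_rhs => rw [← hfix, coeff_map, frobenius_def]
    have hbot := (Subfield.mem_bot_iff_pow_eq_self (F := ResidueField A) (p := ℓ)).mpr hc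
    have hle : (⊥ : Subfield (ResidueField A)) ≤ RingHom.eqLocusField gb (RingHom.id _) := bot_le
    exact hle hbot
  have hroot : P.eval zb = 0 := by
    rw [hP, eval_prod]
    exact Finset.prod_eq_zero (Finset.mem_range.mpr hn) (by simp)
  have hroot' : P.eval (gb zb) = 0 := by
    rw [← hcoef, eval_map, eval₂_at_apply, hroot, map_zero]
  rw [hP, eval_prod, Finset.prod_eq_zero_iff] at hroot'
  -- so `g` moves the root into the orbit, and roots of unity prime to `ℓ` stay distinct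
  obtain ⟨k, -, hk⟩ := hroot'
  rw [eval_sub, eval_X, eval_C, sub_eq_zero] at hk
  refine ⟨k, ?_⟩
  by_contra hne
  refine sub_notMem_primeOf hℓ (Ne.symm hql) hA (z := w) hz
    (i := ((cycChar q g : (ZMod q)ˣ) : ZMod q).val) (j := ℓ ^ k)
    (by rwa [ZMod.natCast_zmod_val, Nat.cast_pow]) ?_
  rw [← residue_intToPlace_eq_iff, map_pow (intToPlace A) w (ℓ ^ k), map_pow (residue A)]
  rw [show w ^ ((cycChar q g : (ZMod q)ˣ) : ZMod q).val = g • w from
      (RingOfIntegers.ext (by push_cast; exact apply_eq_pow_cycChar g hz.pow_eq_one)).symm,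
    intToPlace_smul hg]
  exact hk

variable (p : ℕ) [hp : Fact p.Prime]

/-- A character of the decomposition group with value `1` at Frobenius, killed by fixing a root of
unity of auxiliary order. -/
private lemma exists_frobenius_zhom (h2 : 2 < p) (hℓ : ℓ.Prime) (hA : A.LiesOverPrime ℓ) :
    ∃ (q : ℕ) (z : ℚbar) (ψ : ZHom p (A.decompositionSubgroup ℚ).subtype)
      (σ : A.decompositionSubgroup ℚ), q.Prime ∧ q ≠ ℓ ∧ IsPrimitiveRoot z q ∧ ψ.1 σ = 1 ∧
      ∀ g : A.decompositionSubgroup ℚ, (g : Γℚ) z = z → ψ.1 g = 0 := by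
  classical
  -- an auxiliary prime `q` at which `ℓ` has order `p`
  obtain ⟨q, hq, hql', hord⟩ := exists_aux_prime p h2 hℓ.one_lt
  have hql : q ≠ ℓ := fun h => hql' (h ▸ dvd_rfl)
  have : Fact q.Prime := ⟨hq⟩
  set D := A.decompositionSubgroup ℚ
  -- on the decomposition group the character mod `q` is `ℓ ^ k`, with `k` well defined mod `p`
  have hex : ∀ g : D, ∃ k : ℕ, ((cycChar q (g : Γℚ) : (ZMod q)ˣ) : ZMod q) = (ℓ : ZMod q) ^ k :=
    fun g => exists_cycChar_eq_pow hℓ hA hql hp.out.pos (hord ▸ pow_orderOf_eq_one _) g.2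
  choose e he using hex
  have huniq : ∀ (g : D) (k : ℕ), ((cycChar q (g : Γℚ) : (ZMod q)ˣ) : ZMod q) = (ℓ : ZMod q) ^ k →
      (e g : ZMod p) = k := fun g k hk => by
    rw [ZMod.natCast_eq_natCast_iff]
    have hu : IsOfFinOrder (ℓ : ZMod q) :=
      orderOf_pos_iff.mp (by rw [hord]; exact hp.out.pos)
    have h := hu.pow_eq_pow_iff_modEq.mp ((he g).symm.trans hk)
    rwa [hord] at h
  -- this exponent is a continuous homomorphism to `ℤ/p`
  obtain ⟨z, hz⟩ := exists_primitiveRoot_qbar (q := q)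
  let ψ : ZHom p D.subtype := ⟨fun g => (e g : ZMod p), by
    obtain ⟨N, hN, hNz⟩ := exists_level_fix (Set.finite_singleton z)
    refine ⟨_, ⟨N, hN, rfl⟩, fun g s hs => huniq _ _ ?_⟩
    have hs1 : cycChar q (s : Γℚ) = 1 := (cycChar_eq_one_iff hz).mpr (hNz _ hs z rfl)
    rw [Subgroup.coe_mul, map_mul, hs1, mul_one, he],
    funext₂ fun g h => by
      have e1 := huniq (g * h) (e g + e h) (by
        rw [Subgroup.coe_mul, map_mul, Units.val_mul, he, he, pow_add])
      simp only [d₁_apply, Representation.trivial_apply, e1, Pi.zero_apply]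
      push_cast
      ring⟩
  obtain ⟨φ, hφ⟩ := exists_isFrobeniusAt hℓ hA
  set σ : D := ⟨φ, hφ.1⟩
  -- it is `1` at Frobenius and vanishes on the stabiliser of `z`
  have hσ : ψ.1 σ = 1 := by
    rw [← Nat.cast_one]
    exact huniq σ 1 (by rw [pow_one]; exact cycChar_frobenius hℓ (Ne.symm hql) hA hφ)
  refine ⟨q, z, ψ, σ, hq, hql, hz, hσ, fun g hg => ?_⟩
  change (e g : ZMod p) = 0
  rw [← Nat.cast_zero]
  refine huniq _ _ ?_
  rw [pow_zero, (cycChar_eq_one_iff hz).mpr hg, Units.val_one]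

omit hp in
/-- The field of a root of unity is normal. -/
private lemma normal_adjoin_zeta {q : ℕ} [Fact q.Prime] {z : ℚbar} (hz : IsPrimitiveRoot z q) :
    Normal ℚ (IntermediateField.adjoin ℚ {z}) := by
  set K : IntermediateField ℚ ℚbar := IntermediateField.adjoin ℚ {z}
  have hzK : z ∈ K := IntermediateField.mem_adjoin_simple_self ℚ z
  refine IntermediateField.normal_iff_forall_map_le'.mpr fun τ => ?_
  rw [IntermediateField.adjoin_map, IntermediateField.adjoin_le_iff]
  rintro _ ⟨x, hx, rfl⟩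
  rw [Set.mem_singleton_iff.mp hx]
  change τ z ∈ K
  rw [apply_eq_pow_cycChar τ hz.pow_eq_one]
  exact pow_mem hzK _

omit hp in
/-- An automorphism fixing the root fixes its field. -/
private lemma mem_fixingSubgroup_adjoin {z : ℚbar} {g : Γℚ} (hg : g z = z) :
    g ∈ (IntermediateField.adjoin ℚ {z}).fixingSubgroup := by
  rw [IntermediateField.mem_fixingSubgroup_iff]
  intro x hx
  induction hx using IntermediateField.adjoin_induction ℚ with
  | mem x hx => rw [Set.mem_singleton_iff.mp hx, hg]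
  | algebraMap x => exact g.commutes x
  | add x y _ _ hx hy => rw [map_add, hx, hy]
  | inv x _ hx => rw [map_inv₀, hx]
  | mul x y _ _ hx hy => rw [map_mul, hx, hy]

omit hp in
/-- Away from `q` the prime is unramified in the field of a `q`-th root of unity. -/
private lemma ord_natCast_adjoin_zeta (hℓ : ℓ.Prime) (hA : A.LiesOverPrime ℓ) {q : ℕ}
    [Fact q.Prime] (hql : q ≠ ℓ) {z : ℚbar} (hz : IsPrimitiveRoot z q)
    [FiniteDimensional ℚ (IntermediateField.adjoin ℚ {z})]
    [Normal ℚ (IntermediateField.adjoin ℚ {z})] :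
    ord (plBelow (IntermediateField.adjoin ℚ {z}) hℓ hA)
      (ℓ : IntermediateField.adjoin ℚ {z}) = 1 := by
  set K : IntermediateField ℚ ℚbar := IntermediateField.adjoin ℚ {z}
  set v := plBelow K hℓ hA
  have : IsGalois ℚ K := qbar_isGalois_intermediate K
  rw [ord_natCast_prime_of_mem hℓ v (natCast_mem_plBelow K hℓ hA), plRamIdx_rat_eq_card]
  have hbot : v.asIdeal.inertia (K ≃ₐ[ℚ] K) = ⊥ := by
    rw [Subgroup.eq_bot_iff_forall]
    intro τ hτ
    obtain ⟨τ', hτ', rfl⟩ := exists_mem_inertia_restrict (L := K) hℓ hA hτ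
    exact (restrict_eq_one_iff K τ').mpr
      (mem_fixingSubgroup_adjoin ((cycChar_eq_one_iff hz).mp (cycChar_eq_one_of_mem_inertia hℓ
        (Ne.symm hql) hA hτ')))
  rw [hbot, Subgroup.card_bot, Nat.cast_one]

omit hp in
/-- The sum of `n` conjugates by a decomposition element has `n` times the order at the prime
below. -/
lemma ord_sum_conj (hℓ : ℓ.Prime) (hA : A.LiesOverPrime ℓ) (σ : A.decompositionSubgroup ℚ)
    {E : IntermediateField ℚ ℚbar} [FiniteDimensional ℚ E] [Normal ℚ E] (y : QU)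
    (hmemy : uval y ∈ E) (n : ℕ) :
    ∃ hmem : uval (∑ k ∈ Finset.range n,
        unitsRep (A.decompositionSubgroup ℚ).subtype (σ ^ k) y) ∈ E,
      ord (plBelow E hℓ hA) (⟨_, hmem⟩ : E) = n * ord (plBelow E hℓ hA) (⟨uval y, hmemy⟩ : E) := by
  set w := plBelow E hℓ hA
  set yE : E := ⟨uval y, hmemy⟩
  have hsum : ∀ (k : ℕ), ∃ hmem : uval (unitsRep (A.decompositionSubgroup ℚ).subtype (σ ^ k) y) ∈ E,
      ord w (⟨_, hmem⟩ : E) = ord w yE := fun k => by
    have e1 : uval (unitsRep (A.decompositionSubgroup ℚ).subtype (σ ^ k) y) =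
        ((AlgEquiv.restrictNormalHom E ((σ ^ k : (A.decompositionSubgroup ℚ)) : Γℚ) yE :
          E) : ℚbar) :=
      (AlgEquiv.restrictNormal_commutes ((σ ^ k : (A.decompositionSubgroup ℚ)) : Γℚ) E yE).symm
    refine ⟨e1 ▸ Subtype.prop _, ?_⟩
    rw [← ord_restrict hℓ hA (σ ^ k : (A.decompositionSubgroup ℚ)).2 yE]
    exact congrArg _ (Subtype.ext e1)
  have key : ∀ n : ℕ, ∃ hmem : uval (∑ k ∈ Finset.range n,
      unitsRep (A.decompositionSubgroup ℚ).subtype (σ ^ k) y) ∈ E,
      ord w (⟨_, hmem⟩ : E) = n * ord w yE := fun n => by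
    induction n with
    | zero =>
      refine ⟨by rw [Finset.sum_range_zero, uval_zero]; exact one_mem E, ?_⟩
      rw [Nat.cast_zero, zero_mul, show (⟨_, _⟩ : E) = 1 from Subtype.ext (by simp), ord_one]
    | succ n ih =>
      obtain ⟨hmem, hn⟩ := ih
      obtain ⟨hmem', hn'⟩ := hsum n
      refine ⟨by rw [Finset.sum_range_succ, uval_add]; exact mul_mem hmem hmem', ?_⟩
      rw [show (⟨_, _⟩ : E) = (⟨_, hmem⟩ : E) * ⟨_, hmem'⟩ from
        Subtype.ext (by simp [Finset.sum_range_succ]), ord_mul w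
          (fun h => uval_ne_zero _ (congrArg Subtype.val h))
          (fun h => uval_ne_zero _ (congrArg Subtype.val h)), hn, hn']
      push_cast; ring
  exact key n

omit hp in
/-- A sum of `n` conjugates of an element fixed by the decomposition group over `K` that lands in
`K` has order divisible by `n`. -/
lemma dvd_ord_of_sum_conj (hℓ : ℓ.Prime) (hA : A.LiesOverPrime ℓ) (σ : A.decompositionSubgroup ℚ)
    {K : IntermediateField ℚ ℚbar} [FiniteDimensional ℚ K] (y : QU)
    (hyK : ∀ g ∈ decGrp A K, g (uval y) = uval y) {n : ℕ} (r : K)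
    (hr : uval (∑ k ∈ Finset.range n,
      unitsRep (A.decompositionSubgroup ℚ).subtype (σ ^ k) y) = (r : ℚbar)) :
    (n : ℤ) ∣ ord (plBelow K hℓ hA) r := by
  set v := plBelow K hℓ hA
  obtain ⟨E, hE, hEn, hKE, hs⟩ := exists_field_containing K (Set.finite_singleton (uval y))
  set yE : E := ⟨uval y, hs rfl⟩
  have hyE0 : yE ≠ 0 := fun h => uval_ne_zero y (congrArg Subtype.val h)
  set w := plBelow E hℓ hA
  obtain ⟨y', hy'0, hy'⟩ := exists_approx (x := yE) hℓ hA hKE hyE0 hyK (n := 1) one_pos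
  obtain ⟨m, hm, hord'⟩ := exists_ord_inclusion (A := A) (E := E) hℓ hA hKE
  have hi0 : IntermediateField.inclusion hKE y' ≠ 0 := (_root_.map_ne_zero _).mpr hy'0
  have hyord : ord w yE = m * ord v y' := by
    have h0 := hy'.ord_eq_zero one_pos
    rw [ord_div w hyE0 hi0, hord'] at h0
    linarith
  obtain ⟨hmem, hkey⟩ := ord_sum_conj hℓ hA σ y (hs rfl) n
  rw [show (⟨_, hmem⟩ : E) = IntermediateField.inclusion hKE r from Subtype.ext hr, hord',
    hyord] at hkey
  refine ⟨ord v y', mul_left_cancel₀ (show (m : ℤ) ≠ 0 by exact_mod_cast hm.ne') ?_⟩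
  linarith

/-- **The nontriviality of `H²(μ_p)` at a place.** -/
theorem exists_H2_decomposition_ne_zero (h2 : 2 < p) (hℓ : ℓ.Prime) (hA : A.LiesOverPrime ℓ) :
    ∃ c : H2 (glev (A.decompositionSubgroup ℚ).subtype)
      (charRep (cycHom p (A.decompositionSubgroup ℚ).subtype)), c ≠ 0 := by
  classical
  set D := A.decompositionSubgroup ℚ
  obtain ⟨q, z, ψ, σ, hq, hql, hz, hσ, hψz⟩ := exists_frobenius_zhom p h2 hℓ hA
  have : Fact q.Prime := ⟨hq⟩
  have hl0 : (ℓ : ℚbar) ≠ 0 := Nat.cast_ne_zero.mpr hℓ.ne_zero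
  set b : H0 (unitsRep D.subtype) := ⟨ofVal _ hl0, mem_ker_d₀.mpr fun g => uval_injective (by
    rw [uval_unitsRep, uval_ofVal, map_natCast])⟩
  refine ⟨cycCup ψ b, fun h => ?_⟩
  obtain ⟨y, hy, hyb⟩ := (cycCup_eq_zero_iff ψ hσ b).mp h
  -- the unramified field
  set K : IntermediateField ℚ ℚbar := IntermediateField.adjoin ℚ {z}
  have hzK : z ∈ K := IntermediateField.mem_adjoin_simple_self ℚ z
  have : FiniteDimensional ℚ K :=
    IntermediateField.adjoin.finiteDimensional (Algebra.IsIntegral.isIntegral z)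
  have : Normal ℚ K := normal_adjoin_zeta hz
  set v := plBelow K hℓ hA
  have hordl : ord v (ℓ : K) = 1 := ord_natCast_adjoin_zeta hℓ hA hql hz
  have hyK : ∀ g ∈ decGrp A K, g (uval y) = uval y := fun g hg =>
    congrArg uval (hy ⟨g, hg.1⟩ (mem_homKer.mpr (hψz ⟨g, hg.1⟩ (apply_eq_of_mem_decGrp hg hzK))))
  have hdvd : (p : ℤ) ∣ 1 := hordl ▸ dvd_ord_of_sum_conj hℓ hA σ y hyK (ℓ : K) (by
    rw [hyb]
    exact (uval_ofVal _ hl0).trans (map_natCast (algebraMap K ℚbar) ℓ).symm)
  exact hp.out.one_lt.ne' (Nat.eq_one_of_dvd_one (by exact_mod_cast hdvd))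

variable {p}

/-- **Local duality data** at a place over `ℓ`. -/
def localData (h2 : 2 < p) (hℓ : ℓ.Prime) (hA : A.LiesOverPrime ℓ) :
    DualityData (glev (A.decompositionSubgroup ℚ).subtype)
      (cycHom p (A.decompositionSubgroup ℚ).subtype) :=
  dualityDataOfTower (charSmooth_cycHom _)
    (fun H hH hχ => (isLocalAt_decomposition A).symbolTower hℓ hA h2 H hH hχ)
    (exists_H2_decomposition_ne_zero p h2 hℓ hA)

end Fermat.CFT
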