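import Fermat.Agent.CFT.Galois.Kummer
import Fermat.Agent.CFT.Herbrand.Basic

/-!
# Numbers fixed by a decomposition group

An algebraic number fixed by the decomposition group of a place over a number field `K` is the
product of an element of `K` and a `p`-th power of such a number; an element of `K` is such a
`p`-th power exactly when it is a local `p`-th power at the prime below.
-/

set_option autoImplicit false

noncomputable section

open NumberField IsDedekindDomain
open scoped Pointwise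

namespace Fermat.CFT

local notation "ℚbar" => AlgebraicClosure ℚ
local notation "Γℚ" => (AlgebraicClosure ℚ ≃ₐ[ℚ] AlgebraicClosure ℚ)

variable {A : ValuationSubring ℚbar} {ℓ : ℕ}

/-- The decomposition group of a place over a field. -/
def decGrp (A : ValuationSubring ℚbar) (K : IntermediateField ℚ ℚbar) : Subgroup Γℚ :=
  A.decompositionSubgroup ℚ ⊓ K.fixingSubgroup

variable {K : IntermediateField ℚ ℚbar}

/-- The decomposition group over `K` fixes `K`. -/
lemma apply_eq_of_mem_decGrp {g : Γℚ} (hg : g ∈ decGrp A K) {x : ℚbar} (hx : x ∈ K) : g x = x :=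
  (IntermediateField.mem_fixingSubgroup_iff K g).mp hg.2 x hx

/-- An algebraic number fixed by the fixing group of `K` lies in `K`. -/
lemma mem_of_fixed {x : ℚbar} (h : ∀ g ∈ K.fixingSubgroup, g x = x) : x ∈ K := by
  rw [← InfiniteGalois.fixedField_fixingSubgroup K]
  exact fun g => h g g.2

/-- The algebraic integers get the discrete topology. -/
local instance : TopologicalSpace (𝓞 ℚbar) := ⊥
/-- The topology on the algebraic integers is discrete. -/
local instance : DiscreteTopology (𝓞 ℚbar) := ⟨rfl⟩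

variable {E : IntermediateField ℚ ℚbar} [FiniteDimensional ℚ E] [Normal ℚ E]

/-- An automorphism of a finite Galois extension fixing the prime below a place lifts to the
decomposition group. -/
theorem exists_decGrp_restrict (hℓ : ℓ.Prime) (hA : A.LiesOverPrime ℓ) (hKE : K ≤ E)
    {τ : E ≃ₐ[ℚ] E} (hK : ∀ x : E, (x : ℚbar) ∈ K → τ x = x)
    (hw : τ • plBelow E hℓ hA = plBelow E hℓ hA) :
    ∃ g ∈ decGrp A K, AlgEquiv.restrictNormalHom E g = τ := by
  have := isInvariant_qbarInt E
  have := continuousSMul_qbarInt E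
  obtain ⟨σ₀, hσ₀⟩ := AlgEquiv.restrictNormalHom_surjective ℚbar τ
  have hunder : (primeOf A).under (𝓞 E) = (σ₀ • primeOf A).under (𝓞 E) := by
    have h1 : primeBelow E (σ₀ • A) = τ • primeBelow E A := by
      rw [← hσ₀]; exact congrArg HeightOneSpectrum.asIdeal (plBelow_smul hℓ hA σ₀)
    have h2 : τ • primeBelow E A = primeBelow E A := congrArg HeightOneSpectrum.asIdeal hw
    have h3 := h1.trans h2
    rw [primeBelow, primeBelow, primeOf_smul] at h3
    exact h3.symm
  obtain ⟨h, hh⟩ := Algebra.IsInvariant.exists_smul_of_under_eq_of_profinite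
    (G := ℚbar ≃ₐ[E] ℚbar) (A := 𝓞 E) (σ₀ • primeOf A) (primeOf A) hunder.symm
  set σ₁ : Γℚ := h.restrictScalars ℚ * σ₀ with hσ₁
  have hres : AlgEquiv.restrictNormalHom E σ₁ = τ := by
    rw [hσ₁, map_mul, (restrict_eq_one_iff E _).mpr ((IntermediateField.mem_fixingSubgroup_iff E
      (h.restrictScalars ℚ)).mpr fun x hx => h.commutes ⟨x, hx⟩), one_mul, hσ₀]
  refine ⟨σ₁, ⟨?_, (IntermediateField.mem_fixingSubgroup_iff K _).mpr fun x hx => ?_⟩, hres⟩
  · change σ₁ ∈ A.decompositionSubgroup ℚ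
    rw [mem_decompositionSubgroup_iff hℓ hA, hσ₁, mul_smul]
    exact hh.symm
  · have e := AlgEquiv.restrictNormal_commutes σ₁ E ⟨x, hKE hx⟩
    rw [show σ₁.restrictNormal E = τ from hres, hK ⟨x, hKE hx⟩ hx] at e
    exact e.symm

/-- The decomposition group preserves the valuation at the prime below. -/
lemma ord_restrict (hℓ : ℓ.Prime) (hA : A.LiesOverPrime ℓ) {g : Γℚ}
    (hg : g ∈ A.decompositionSubgroup ℚ) (x : E) :
    ord (plBelow E hℓ hA) (AlgEquiv.restrictNormalHom E g x) = ord (plBelow E hℓ hA) x := by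
  have := ord_smul (AlgEquiv.restrictNormalHom E g) (plBelow E hℓ hA) x
  rwa [restrict_smul_plBelow hℓ hA hg] at this

omit [Normal ℚ E] in
/-- Orders at the prime of `E` below a place are a positive multiple of those at that of `K`. -/
lemma exists_ord_inclusion [FiniteDimensional ℚ K] (hℓ : ℓ.Prime) (hA : A.LiesOverPrime ℓ)
    (hKE : K ≤ E) : ∃ e : ℕ, 0 < e ∧ ∀ x : K,
      ord (plBelow E hℓ hA) (IntermediateField.inclusion hKE x) = e * ord (plBelow K hℓ hA) x := by
  let i : K →ₐ[ℚ] E := IntermediateField.inclusion hKE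
  let alg : Algebra K E := i.toRingHom.toAlgebra
  have hu : plUnder K (plBelow E hℓ hA) = plBelow K hℓ hA := by
    refine HeightOneSpectrum.ext (SetLike.ext fun x => ?_)
    change algebraMap (𝓞 K) (𝓞 E) x ∈ primeBelow E A ↔ x ∈ primeBelow K A
    rw [primeBelow, primeBelow, Ideal.mem_comap, Ideal.mem_comap]
    rfl
  refine ⟨plRamIdx K (plBelow E hℓ hA), plRamIdx_pos _, fun x => ?_⟩
  have := ord_algebraMap_eq (K := K) (plBelow E hℓ hA) x
  rwa [hu] at this

/-- An element with prescribed congruences at a prime and at finitely many others. -/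
lemma exists_close_one_zero {F : Type} [Field F] [NumberField F] (w : Pl F) (S : Finset (Pl F))
    (hS : w ∉ S) (m : ℕ) :
    ∃ e : 𝓞 F, e - 1 ∈ w.asIdeal ^ m ∧ ∀ u ∈ S, e ∈ u.asIdeal ^ m := by
  classical
  obtain ⟨e, he⟩ := IsDedekindDomain.exists_forall_sub_mem_ideal (s := insert w S)
    (fun u : Pl F => u.asIdeal) (fun _ => m) (fun u _ => u.prime)
    (fun u _ u' _ h h' => h (HeightOneSpectrum.ext h')) fun u => if u.1 = w then 1 else 0
  refine ⟨e, by simpa using he w (Finset.mem_insert_self w S), fun u hu => ?_⟩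
  have hne : u ≠ w := fun h => hS (h ▸ hu)
  simpa [hne] using he u (Finset.mem_insert_of_mem hu)

/-- An integer in `wᵐ` is zero or has valuation at least `m`. -/
lemma le_ord_of_mem_pow {F : Type} [Field F] [NumberField F] (w : Pl F) {e : 𝓞 F} {m : ℕ}
    (h : e ∈ w.asIdeal ^ m) : (e : F) = 0 ∨ (m : ℤ) ≤ ord w (e : F) := by
  rcases eq_or_ne e 0 with rfl | h0
  · exact Or.inl (map_zero _)
  · exact Or.inr ((le_ord_algebraMap_iff w h0 m).mpr h)

open scoped Classical in
/-- The sum over the automorphisms fixing `K` lies in `K`. -/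
lemma sum_fixing_mem (z : E) :
    ((∑ τ ∈ Finset.univ.filter (fun τ : E ≃ₐ[ℚ] E => ∀ a : E, (a : ℚbar) ∈ K → τ a = a), τ z
      : E) : ℚbar) ∈ K := by
  set G := Finset.univ.filter (fun τ : E ≃ₐ[ℚ] E => ∀ a : E, (a : ℚbar) ∈ K → τ a = a)
  have hGmem : ∀ τ, τ ∈ G ↔ ∀ a : E, (a : ℚbar) ∈ K → τ a = a := fun τ => by simp [G]
  refine mem_of_fixed fun g hg => ?_
  set γ := AlgEquiv.restrictNormalHom E g
  have hres : γ ∈ G := (hGmem _).mpr fun a ha =>
    Subtype.ext ((AlgEquiv.restrictNormal_commutes g E a).trans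
      ((IntermediateField.mem_fixingSubgroup_iff K g).mp hg _ ha))
  refine (AlgEquiv.restrictNormal_commutes g E _).symm.trans (congrArg Subtype.val ?_)
  change γ _ = _
  rw [map_sum]
  have hinj : Set.InjOn (fun τ => γ * τ) (G : Set (E ≃ₐ[ℚ] E)) :=
    fun a _ b _ h => mul_left_cancel h
  have himg : G.image (fun τ => γ * τ) = G :=
    Finset.eq_of_subset_of_card_le (Finset.image_subset_iff.mpr fun τ hτ =>
      (hGmem _).mpr fun a ha => by
        rw [AlgEquiv.mul_apply, (hGmem τ).mp hτ a ha, (hGmem γ).mp hres a ha])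
      (by rw [Finset.card_image_of_injOn hinj])
  conv_rhs => rw [← himg, Finset.sum_image hinj]
  exact Finset.sum_congr rfl fun τ _ => rfl

/-- **Approximation.** An element of a finite Galois extension fixed by the decomposition group
over `K` is congruent to an element of `K` at the place. -/
theorem exists_approx (hℓ : ℓ.Prime) (hA : A.LiesOverPrime ℓ)
    (hKE : K ≤ E) {x : E} (hx0 : x ≠ 0) (hx : ∀ g ∈ decGrp A K, g (x : ℚbar) = x) {n : ℤ}
    (hn : 0 < n) : ∃ y : K, y ≠ 0 ∧
      CloseOne (plBelow E hℓ hA) n (x / IntermediateField.inclusion hKE y) := by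
  classical
  set w := plBelow E hℓ hA with hwdef
  set G : Finset (E ≃ₐ[ℚ] E) := Finset.univ.filter fun τ => ∀ a : E, (a : ℚbar) ∈ K → τ a = a
    with hG
  have hGmem : ∀ τ, τ ∈ G ↔ ∀ a : E, (a : ℚbar) ∈ K → τ a = a := fun τ => by simp [hG]
  set W := G.filter fun τ => τ • w = w with hW
  set S := (G.image fun τ => τ • w).erase w with hS
  have h1W : (1 : E ≃ₐ[ℚ] E) ∈ W :=
    Finset.mem_filter.mpr ⟨(hGmem 1).mpr fun _ _ => rfl, one_smul _ w⟩
  have hWx : ∀ τ ∈ W, τ x = x := fun τ hτ => by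
    obtain ⟨hτG, hτw⟩ := Finset.mem_filter.mp hτ
    obtain ⟨g, hg, rfl⟩ := exists_decGrp_restrict hℓ hA hKE ((hGmem τ).mp hτG) hτw
    exact Subtype.ext ((AlgEquiv.restrictNormal_commutes g E x).trans (hx g hg))
  set c : E := (W.card : E) with hc
  have hc0 : c ≠ 0 := Nat.cast_ne_zero.mpr (Finset.card_ne_zero.mpr ⟨1, h1W⟩)
  -- the level
  obtain ⟨m, hm⟩ : ∃ m : ℕ, n + ord w c + ord w x + ∑ τ ∈ G, |ord w (τ x)| ≤ m :=
    ⟨_, Int.self_le_toNat _⟩
  obtain ⟨e, he1, he0⟩ := exists_close_one_zero w S (Finset.notMem_erase w _) m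
  set z : E := x * (e : E) with hz
  -- the symmetrisation
  set s : E := ∑ τ ∈ G, τ z with hs
  have hsK : (s : ℚbar) ∈ K := by
    rw [hs, hG]
    exact sum_fixing_mem z
  set yK : K := (W.card : K)⁻¹ * ⟨s, hsK⟩ with hy
  have hincl : IntermediateField.inclusion hKE yK = s / c := by
    rw [hy, map_mul, map_inv₀, map_natCast, div_eq_inv_mul]
    rfl
  -- the error
  have hτord : ∀ τ : E ≃ₐ[ℚ] E, τ ∈ G → ∀ f : E, (f = 0 ∨ (m : ℤ) ≤ ord (τ⁻¹ • w) f) →
      τ (x * f) = 0 ∨ n + ord w c + ord w x ≤ ord w (τ (x * f)) := fun τ hτ f hf => by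
    rcases eq_or_ne f 0 with h0 | h0
    · exact Or.inl (by rw [h0, mul_zero, map_zero])
    refine Or.inr ?_
    have h2 := hf.resolve_left h0
    have h3 : ord w (τ f) = ord (τ⁻¹ • w) f := by
      have := ord_smul τ (τ⁻¹ • w) f
      rwa [smul_inv_smul, AlgEquiv.smul_def] at this
    rw [map_mul, ord_mul w ((_root_.map_ne_zero τ).mpr hx0) ((_root_.map_ne_zero τ).mpr h0), h3]
    have h4 := Finset.single_le_sum (f := fun τ => |ord w (τ x)|) (fun _ _ => abs_nonneg _) hτ
    have h5 := neg_abs_le (ord w (τ x))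
    linarith
  have herr : s - c * x = 0 ∨ n + ord w c + ord w x ≤ ord w (s - c * x) := by
    have e1 : s - c * x = ∑ τ ∈ W, τ (x * ((e : E) - 1)) +
        ∑ τ ∈ G.filter (fun τ => ¬ τ • w = w), τ z := by
      rw [hs, ← Finset.sum_filter_add_sum_filter_not G (fun τ => τ • w = w)]
      have e2 : ∑ τ ∈ W, τ (x * ((e : E) - 1)) = ∑ τ ∈ W, τ z - c * x := by
        have e3 : ∀ τ ∈ W, τ (x * ((e : E) - 1)) = τ z - x := fun τ hτ => by
          rw [mul_sub, mul_one, map_sub, hWx τ hτ]
        rw [Finset.sum_congr rfl e3, Finset.sum_sub_distrib, Finset.sum_const, nsmul_eq_mul]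
      rw [e2, hW]; abel
    rw [e1]
    have hA1 := ord_sum_ge w (n := n + ord w c + ord w x) W (fun τ => τ (x * ((e : E) - 1)))
      fun τ hτ => by
        obtain ⟨hτG, hτw⟩ := Finset.mem_filter.mp hτ
        refine hτord τ hτG _ ?_
        rw [inv_smul_eq_iff.mpr hτw.symm]
        simpa using le_ord_of_mem_pow w he1
    have hA2 := ord_sum_ge w (n := n + ord w c + ord w x) (G.filter fun τ => ¬ τ • w = w)
      (fun τ => τ z) fun τ hτ => by
        obtain ⟨hτG, hτw⟩ := Finset.mem_filter.mp hτ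
        refine hτord τ hτG _ (le_ord_of_mem_pow _ (he0 _ (Finset.mem_erase.mpr ⟨?_, ?_⟩)))
        · rw [Ne, inv_smul_eq_iff]; exact fun h => hτw h.symm
        · refine Finset.mem_image.mpr ⟨τ⁻¹, (hGmem _).mpr fun a ha => ?_, rfl⟩
          conv_lhs => rw [← (hGmem τ).mp hτG a ha]
          exact τ.symm_apply_apply a
    rcases eq_or_ne (∑ τ ∈ W, τ (x * ((e : E) - 1)) +
        ∑ τ ∈ G.filter (fun τ => ¬ τ • w = w), τ z) 0 with h0 | h0
    · exact Or.inl h0
    · exact Or.inr (ord_add_ge w h0 hA1 hA2)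
  have hcx0 : c * x ≠ 0 := mul_ne_zero hc0 hx0
  have hs0 : s ≠ 0 := fun h => by
    rw [h, zero_sub] at herr
    rcases herr with h' | h'
    · exact hcx0 (neg_eq_zero.mp h')
    · rw [ord_neg, ord_mul w hc0 hx0] at h'; omega
  have hclose : CloseOne w n (s / (c * x)) := by
    rcases herr with h | h
    · exact Or.inl (by rw [sub_eq_zero.mp h, div_self hcx0])
    rcases eq_or_ne (s / (c * x)) 1 with h1 | h1
    · exact Or.inl h1
    refine Or.inr ?_
    have hne : s - c * x ≠ 0 := fun h0 => h1 (by rw [sub_eq_zero.mp h0, div_self hcx0])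
    rw [div_sub_one hcx0, ord_div w hne hcx0, ord_mul w hc0 hx0]
    linarith
  refine ⟨yK, fun h0 => ?_, ?_⟩
  · rw [h0, map_zero, eq_comm, div_eq_zero_iff] at hincl
    exact hincl.elim hs0 hc0
  · have e4 : x / IntermediateField.inclusion hKE yK = (s / (c * x))⁻¹ := by
      rw [hincl, div_div_eq_mul_div, inv_div, mul_comm x c]
    rw [e4]
    exact hclose.inv hn (div_ne_zero hs0 hcx0)

/-- If `β ^ p` is close to `1`, some `β ζ ^ i` is fixed by every element of the decomposition group
fixing `β ^ p`. -/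
theorem exists_root_fixed {p : ℕ} [hp : Fact p.Prime] (hℓ : ℓ.Prime) (hA : A.LiesOverPrime ℓ)
    {ζ β : E} (hζ : IsPrimitiveRoot ζ p)
    (hclose : CloseOne (plBelow E hℓ hA) (localLevel p ζ (plBelow E hℓ hA)) (β ^ p))
    (hβ : β ≠ 0) : ∃ i : ℕ, ∀ g ∈ A.decompositionSubgroup ℚ,
      g ((β ^ p : E) : ℚbar) = ((β ^ p : E) : ℚbar) →
      g ((β * ζ ^ i : E) : ℚbar) = ((β * ζ ^ i : E) : ℚbar) := by
  set w := plBelow E hℓ hA
  set c : ℤ := (zetaOrd ζ w : ℤ) with hcdef
  have hζ0 : ζ ≠ 0 := hζ.ne_zero hp.out.ne_zero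
  -- some `β - ζ ^ j` is small
  obtain ⟨j, hj, hj'⟩ : ∃ j < p, β - ζ ^ j = 0 ∨ c < ord w (β - ζ ^ j) := by
    by_contra hno
    push Not at hno
    have hne : ∀ j ∈ Finset.range p, β - ζ ^ j ≠ 0 := fun j hj =>
      (hno j (Finset.mem_range.mp hj)).1
    have hne1 : β ^ p - 1 ≠ 0 := by
      rw [← prod_sub_zeta_pow hζ]; exact Finset.prod_ne_zero_iff.mpr hne
    have h1 : (localLevel p ζ w : ℤ) ≤ ord w (β ^ p - 1) :=
      hclose.resolve_left (sub_ne_zero.mp hne1)
    have h2 : ord w (∏ j ∈ Finset.range p, (β - ζ ^ j)) ≤ p * c := by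
      rw [ord_prod w _ _ hne]
      have := Finset.sum_le_sum (s := Finset.range p) fun j hj =>
        (hno j (Finset.mem_range.mp hj)).2
      simpa using this
    rw [prod_sub_zeta_pow hζ] at h2
    simp only [localLevel] at h1
    push_cast at h1
    simp only [hcdef] at h2
    linarith
  refine ⟨p - j, fun g hg hfix => ?_⟩
  set β' := β * ζ ^ (p - j) with hβ'
  have hβ'0 : β' ≠ 0 := mul_ne_zero hβ (pow_ne_zero _ hζ0)
  have hclose' : β' - 1 = 0 ∨ c < ord w (β' - 1) := by
    have e : β' - 1 = ζ ^ (p - j) * (β - ζ ^ j) := by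
      rw [mul_sub, ← pow_add, Nat.sub_add_cancel hj.le, hζ.pow_eq_one, hβ', mul_comm]
    rcases hj' with h | h
    · exact Or.inl (by rw [e, h, mul_zero])
    · rcases eq_or_ne (β - ζ ^ j) 0 with h0 | h0
      · exact Or.inl (by rw [e, h0, mul_zero])
      · refine Or.inr ?_
        rw [e, ord_mul w (pow_ne_zero _ hζ0) h0, ord_zeta_pow hζ, zero_add]
        exact h
  have hord : ord w β' = 0 := by
    rcases hclose' with h | h
    · rw [sub_eq_zero.mp h, ord_one]
    · exact CloseOne.ord_eq_zero (n := c + 1) (by omega) (Or.inr (by omega))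
  set τ := AlgEquiv.restrictNormalHom E g with hτ
  have hτβ : τ (β' ^ p) = β' ^ p := by
    refine Subtype.ext ((AlgEquiv.restrictNormal_commutes g E _).trans ?_)
    have e2 : β' ^ p = β ^ p := by
      rw [hβ', mul_pow, ← pow_mul, mul_comm (p - j), pow_mul, hζ.pow_eq_one, one_pow, mul_one]
    rw [e2]
    exact hfix
  obtain ⟨k, hk, hk'⟩ := hζ.eq_pow_of_pow_eq_one (show (τ β' / β') ^ p = 1 by
    rw [div_pow, ← map_pow, hτβ, div_self (pow_ne_zero _ hβ'0)])
  rw [eq_div_iff hβ'0] at hk'
  rcases Nat.eq_zero_or_pos k with rfl | hk0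
  · rw [pow_zero, one_mul] at hk'
    exact (AlgEquiv.restrictNormal_commutes g E β').symm.trans (congrArg Subtype.val hk'.symm)
  -- otherwise `(ζ ^ k - 1) β'` would be too small
  exfalso
  have hτclose : τ β' - 1 = 0 ∨ c < ord w (τ β' - 1) := by
    rcases hclose' with h | h
    · exact Or.inl (by rw [← map_one τ, ← map_sub, h, map_zero])
    · refine Or.inr ?_
      rw [← map_one τ, ← map_sub, hτ, ord_restrict hℓ hA hg]
      exact h
  have hk1 : ζ ^ k - 1 ≠ 0 := sub_ne_zero.mpr (hζ.pow_ne_one_of_pos_of_lt hk0.ne' hk)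
  have e : (ζ ^ k - 1) * β' = (τ β' - 1) + -(β' - 1) := by rw [← hk']; ring
  have hd : ord w ((ζ ^ k - 1) * β') = c := by
    rw [ord_mul w hk1 hβ'0, hord, add_zero, ← pow_zero ζ,
      ord_zeta_pow_sub hζ w hk hp.out.pos hk0.ne']
  have := ord_add_ge w (n := c + 1) (x := τ β' - 1) (y := -(β' - 1))
    (by rw [← e]; exact mul_ne_zero hk1 hβ'0) (hτclose.imp id fun h => by omega)
    (hclose'.imp (fun h => by rw [h, neg_zero]) fun h => by rw [ord_neg]; omega)
  rw [← e, hd] at this
  omega

/-! ### Consequences for Kummer theory -/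

variable {p : ℕ} [hp : Fact p.Prime]

omit hp in
/-- A finite Galois extension of `ℚ` containing `K` and a finite set of algebraic numbers. -/
lemma exists_field_containing (K : IntermediateField ℚ ℚbar) [FiniteDimensional ℚ K]
    {s : Set ℚbar} (hs : s.Finite) : ∃ E : IntermediateField ℚ ℚbar,
      FiniteDimensional ℚ E ∧ Normal ℚ E ∧ K ≤ E ∧ s ⊆ E := by
  obtain ⟨E₀, hE₀, -, hs₀⟩ := exists_normal_field hs
  exact ⟨IntermediateField.normalClosure ℚ (K ⊔ E₀ : IntermediateField ℚ ℚbar) ℚbar,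
    inferInstance, normalClosure.normal ℚ _ ℚbar,
    le_sup_left.trans (IntermediateField.le_normalClosure _),
    hs₀.trans (le_sup_right.trans (IntermediateField.le_normalClosure _) :
      E₀ ≤ IntermediateField.normalClosure ℚ (K ⊔ E₀ : IntermediateField ℚ ℚbar) ℚbar)⟩

/-- Closeness to a higher level implies closeness to a lower one. -/
lemma CloseOne.mono {F : Type} [Field F] [NumberField F] {v : Pl F} {n m : ℤ} {z : F}
    (hmn : m ≤ n) (h : CloseOne v n z) : CloseOne v m z :=
  h.imp id hmn.trans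

omit [Normal ℚ E] in
/-- At the prime above, valuations and levels of closeness are multiplied by the ramification
index. -/
lemma closeOne_inclusion_iff [FiniteDimensional ℚ K] (hℓ : ℓ.Prime) (hA : A.LiesOverPrime ℓ)
    (hKE : K ≤ E) : ∃ e : ℕ, 0 < e ∧
      (∀ x : K, ord (plBelow E hℓ hA) (IntermediateField.inclusion hKE x) =
        e * ord (plBelow K hℓ hA) x) ∧
      ∀ (x : K) (n : ℤ), CloseOne (plBelow K hℓ hA) n x ↔
        CloseOne (plBelow E hℓ hA) (e * n) (IntermediateField.inclusion hKE x) := by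
  obtain ⟨e, he, hord⟩ := exists_ord_inclusion hℓ hA hKE
  refine ⟨e, he, hord, fun x n => or_congr ?_ ?_⟩
  · rw [← map_one (IntermediateField.inclusion hKE)]
    exact (IntermediateField.inclusion hKE).injective.eq_iff.symm
  · rw [← map_one (IntermediateField.inclusion hKE), ← map_sub, hord]
    exact ⟨fun h => by nlinarith, fun h => by nlinarith⟩

/-- Every number fixed by `decGrp A K` is in `K` up to `p`-th powers of such numbers. -/
theorem exists_mem_add_nsmul [FiniteDimensional ℚ K] (hℓ : ℓ.Prime) (hA : A.LiesOverPrime ℓ)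
    {x : QU} (hx : ∀ g ∈ decGrp A K, g (uval x) = uval x) :
    ∃ y z : QU, uval y ∈ K ∧ (∀ g ∈ decGrp A K, g (uval z) = uval z) ∧ x = y + p • z := by
  have : NeZero (p : ℚbar) := ⟨Nat.cast_ne_zero.mpr hp.out.ne_zero⟩
  obtain ⟨E₁, hE₁, hE₁n, hKE₁, hs₁⟩ := exists_field_containing K (Set.finite_singleton (uval x))
  set w₁ := plBelow E₁ hℓ hA
  have hxE : uval x ∈ E₁ := hs₁ rfl
  obtain ⟨ζ, hζ⟩ := HasEnoughRootsOfUnity.exists_primitiveRoot ℚbar p
  -- the level needed at any larger field is at most `p * ord (p) + 1`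
  obtain ⟨y, hy0, hy⟩ := exists_approx (x := (⟨_, hxE⟩ : E₁)) hℓ hA hKE₁
    (fun h => uval_ne_zero x (congrArg Subtype.val h)) hx
    (n := p * ord w₁ (p : E₁) + 1) (by
      have : 0 ≤ ord w₁ (p : E₁) := ord_nonneg_of_isIntegral w₁ (isIntegral_natCast _)
      positivity)
  set Y : QU := ofVal (y : ℚbar) (fun h => hy0 (Subtype.ext h)) with hY
  set u : QU := x - Y with hu
  obtain ⟨β, hβ⟩ := exists_root p u
  obtain ⟨E, hE, hEn, hE₁E, hs⟩ := exists_field_containing E₁
    ((Set.finite_singleton ζ).insert (uval β))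
  set w := plBelow E hℓ hA
  set ζE : E := ⟨ζ, hs (Set.mem_insert_of_mem _ rfl)⟩
  set βE : E := ⟨uval β, hs (Set.mem_insert _ _)⟩
  have hζE : IsPrimitiveRoot ζE p :=
    IsPrimitiveRoot.of_map_of_injective (f := E.val) hζ Subtype.val_injective
  have hval : (βE ^ p : E) =
      IntermediateField.inclusion hE₁E (⟨_, hxE⟩ / IntermediateField.inclusion hKE₁ y) := by
    refine Subtype.ext ?_
    have := congrArg uval hβ
    rw [uval_nsmul, hu, uval_sub, hY, uval_ofVal] at this
    exact this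
  obtain ⟨e, he, hord, hiff⟩ := closeOne_inclusion_iff (E := E) hℓ hA hE₁E
  have hclose : CloseOne w (localLevel p ζE w) (βE ^ p) := by
    rw [hval]
    refine CloseOne.mono ?_ ((hiff _ _).mp hy)
    have h1 := hord (p : E₁)
    rw [map_natCast, ord_natCast_prime hζE] at h1
    have hc : (0 : ℤ) ≤ zetaOrd ζE w := Int.natCast_nonneg _
    have hp1 : (1 : ℤ) ≤ ((p - 1 : ℕ) : ℤ) := by have := hp.out.two_le; omega
    simp only [localLevel]
    push_cast
    have hpc : (p : ℤ) * zetaOrd ζE w ≤ p * (((p - 1 : ℕ) : ℤ) * zetaOrd ζE w) :=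
      mul_le_mul_of_nonneg_left (le_mul_of_one_le_left hc hp1) (Int.natCast_nonneg _)
    rw [h1] at hpc
    linarith
  obtain ⟨i, hi⟩ := exists_root_fixed hℓ hA hζE hclose
    (fun h => uval_ne_zero β (congrArg Subtype.val h))
  refine ⟨Y, β + i • ofVal ζ (hζ.ne_zero hp.out.ne_zero), by rw [hY, uval_ofVal]; exact y.2,
    fun g hg => ?_, ?_⟩
  · have := hi g hg.1 (by
      have hY' : g (uval Y) = uval Y :=
        apply_eq_of_mem_decGrp hg (by rw [hY, uval_ofVal]; exact y.2)
      change g (uval β ^ p) = uval β ^ p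
      rw [← uval_nsmul, hβ, hu, uval_sub, map_div₀, hx g hg, hY'])
    change g (uval β * uval (i • ofVal ζ _)) = _
    rw [uval_nsmul, uval_ofVal]
    exact this.trans (by rw [uval_add, uval_nsmul, uval_ofVal]; rfl)
  · rw [nsmul_add, hβ, ← mul_smul, mul_comm, mul_smul,
      show p • ofVal ζ (hζ.ne_zero hp.out.ne_zero) = 0 from uval_injective (by
        rw [uval_nsmul, uval_ofVal, hζ.pow_eq_one, uval_zero]),
      smul_zero, add_zero, hu, add_sub_cancel]

/-- An element of `K` is a `p`-th power of a number fixed by `decGrp A K` exactly when it is a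
local `p`-th power at the prime below. -/
theorem mem_localPowers_iff [FiniteDimensional ℚ K] (hℓ : ℓ.Prime) (hA : A.LiesOverPrime ℓ)
    {ζ : K} (hζ : IsPrimitiveRoot ζ p) (a : (K : Type)ˣ) :
    a ∈ localPowers p ζ (plBelow K hℓ hA) ↔
      ∃ z : QU, (∀ g ∈ decGrp A K, g (uval z) = uval z) ∧ uval (p • z) = ((a : K) : ℚbar) := by
  set v := plBelow K hℓ hA
  have hζbar : IsPrimitiveRoot ((ζ : K) : ℚbar) p :=
    hζ.map_of_injective (f := K.val) Subtype.val_injective
  constructor
  · rintro ⟨y, hy⟩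
    obtain ⟨β, hβ0, hβ⟩ : ∃ β : ℚbar, β ≠ 0 ∧ β ^ p = (((a : K) / (y : K) ^ p : K) : ℚbar) := by
      obtain ⟨β, hβ⟩ := IsAlgClosed.exists_pow_nat_eq
        (((a : K) / (y : K) ^ p : K) : ℚbar) hp.out.pos
      refine ⟨β, fun h => div_ne_zero a.ne_zero (pow_ne_zero p y.ne_zero) (Subtype.ext ?_), hβ⟩
      rw [← hβ, h, zero_pow hp.out.ne_zero]
      rfl
    -- a root of `a / y ^ p`, close to `1` in a finite Galois field, is fixed up to a root of unity
    obtain ⟨E, hE, hEn, hKE, hs⟩ := exists_field_containing K (Set.finite_singleton β)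
    set βE : E := ⟨β, hs rfl⟩
    set ζE : E := IntermediateField.inclusion hKE ζ
    have hζE : IsPrimitiveRoot ζE p :=
      hζ.map_of_injective (IntermediateField.inclusion hKE).injective
    obtain ⟨e', he', hord, hiff⟩ := closeOne_inclusion_iff (E := E) hℓ hA hKE
    have hval : (βE ^ p : E) = IntermediateField.inclusion hKE ((a : K) / (y : K) ^ p) :=
      Subtype.ext hβ
    have hclose : CloseOne (plBelow E hℓ hA) (localLevel p ζE (plBelow E hℓ hA)) (βE ^ p) := by
      rw [hval]
      rcases hy with h | h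
      · exact Or.inl (by rw [h, map_one])
      refine Or.inr ?_
      rw [← map_one (IntermediateField.inclusion hKE), ← map_sub, hord]
      have h1 := hord (1 - ζ)
      rw [map_sub, map_one, ord_one_sub_zeta hζE, ord_one_sub_zeta hζ] at h1
      simp only [localLevel] at h ⊢
      push_cast at h ⊢
      rw [h1]
      nlinarith
    obtain ⟨i, hi⟩ := exists_root_fixed hℓ hA hζE hclose (fun h => hβ0 (congrArg Subtype.val h))
    refine ⟨ofVal (((βE * ζE ^ i : E) : ℚbar) * ((y : K) : ℚbar))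
      (mul_ne_zero ?_ (fun h => y.ne_zero (Subtype.ext h))), fun g hg => ?_, ?_⟩
    · exact fun h => mul_ne_zero (fun h0 : βE = 0 => hβ0 (congrArg Subtype.val h0))
        (pow_ne_zero i (hζE.ne_zero hp.out.ne_zero)) (Subtype.ext h)
    · rw [uval_ofVal, map_mul, apply_eq_of_mem_decGrp hg (y : K).2, hi g hg.1
        (apply_eq_of_mem_decGrp hg (by rw [hval]; exact ((a : K) / (y : K) ^ p).2))]
    · rw [uval_nsmul, uval_ofVal, mul_pow]
      have e1 : ((βE * ζE ^ i : E) : ℚbar) ^ p = (((a : K) / (y : K) ^ p : K) : ℚbar) := by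
        change (β * ((ζ : K) : ℚbar) ^ i) ^ p = _
        rw [mul_pow, hβ, ← pow_mul, mul_comm i, pow_mul, hζbar.pow_eq_one, one_pow, mul_one]
      rw [e1]
      change ((a : K) : ℚbar) / ((y : K) : ℚbar) ^ p * _ = _
      rw [div_mul_cancel₀]
      exact pow_ne_zero _ fun h => y.ne_zero (Subtype.ext h)
  · rintro ⟨z, hz, hza⟩
    -- approximate `z` by an element of `K`
    obtain ⟨E, hE, hEn, hKE, hs⟩ := exists_field_containing K (Set.finite_singleton (uval z))
    set zE : E := ⟨uval z, hs rfl⟩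
    obtain ⟨e, he, -, hiff⟩ := closeOne_inclusion_iff (E := E) hℓ hA hKE
    obtain ⟨y, hy0, hy⟩ := exists_approx (x := zE) hℓ hA hKE
      (fun h => uval_ne_zero z (congrArg Subtype.val h)) hz
      (n := e * localLevel p ζ v) (by have := localLevel_pos p ζ v; positivity)
    refine ⟨Units.mk0 y hy0, (hiff _ _).mpr ?_⟩
    have e1 : IntermediateField.inclusion hKE ((a : K) / y ^ p) =
        (zE / IntermediateField.inclusion hKE y) ^ p := by
      rw [map_div₀, map_pow, div_pow]
      congr 1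
      refine Subtype.ext ?_
      rw [uval_nsmul] at hza
      exact hza.symm
    rw [Units.val_mk0, e1]
    have hpos : (0 : ℤ) < e * localLevel p ζ v := by have := localLevel_pos p ζ v; positivity
    have hne : zE / IntermediateField.inclusion hKE y ≠ 0 :=
      div_ne_zero (fun h => uval_ne_zero z (congrArg Subtype.val h))
        ((_root_.map_ne_zero _).mpr hy0)
    have : ∀ k, CloseOne (plBelow E hℓ hA) (e * localLevel p ζ v)
        ((zE / IntermediateField.inclusion hKE y) ^ k) := by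
      intro k
      induction k with
      | zero => exact Or.inl (pow_zero _)
      | succ k ih => rw [pow_succ]; exact ih.mul hpos hy hne
    exact this p

end Fermat.CFT
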