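import Fermat.Agent.CFT.Local.Approx
import Fermat.Agent.CFT.Galois.CyclicH2
import Fermat.Agent.CFT.Kummer.NormTheorem

/-!
# The local symbol

For the decomposition group of a place over a number field containing the `p`-th roots of unity,
`H¹(μ_p)` is `Kˣ` modulo local `p`-th powers and the cup product is the norm residue symbol.

`exists_localNorms`, `finite_H1` and `exists_ne_zero_H1`; `Tower` assembles them into a symbol on
every open subgroup.
-/

set_option autoImplicit false

noncomputable section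

open NumberField IsDedekindDomain Fermat.CFT.Coh
open scoped Pointwise

namespace Fermat.CFT

local notation "ℚbar" => AlgebraicClosure ℚ
local notation "Γℚ" => (AlgebraicClosure ℚ ≃ₐ[ℚ] AlgebraicClosure ℚ)

variable {G : Type} [Group G] {r : G →* Γℚ} {A : ValuationSubring ℚbar}
  {K : IntermediateField ℚ ℚbar}

/-- `r` has image dense in the decomposition group of `A` over `K`. -/
structure IsLocalAt (r : G →* Γℚ) (A : ValuationSubring ℚbar)
    (K : IntermediateField ℚ ℚbar) : Prop where
  /-- The image lies in the decomposition group over `K`. -/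
  range_le : ∀ g, r g ∈ decGrp A K
  /-- The image meets every coset of every level in that group. -/
  dense : ∀ x ∈ decGrp A K, ∀ N, (galLevels Set.univ).IsLevel N → ∃ g, x⁻¹ * r g ∈ N

/-- The decomposition group over `K` is local at `A` over `K`. -/
lemma isLocalAt_subtype (A : ValuationSubring ℚbar) (K : IntermediateField ℚ ℚbar) :
    IsLocalAt (decGrp A K).subtype A K :=
  ⟨fun g => g.2, fun x hx N _ => ⟨⟨x, hx⟩, by simp⟩⟩

/-- The decomposition group is local at `A` over `ℚ`. -/
lemma isLocalAt_decomposition (A : ValuationSubring ℚbar) :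
    IsLocalAt (A.decompositionSubgroup ℚ).subtype A ⊥ :=
  ⟨fun g => ⟨g.2, by rw [IntermediateField.fixingSubgroup_bot]; exact Subgroup.mem_top _⟩,
    fun x hx N _ => ⟨⟨x, hx.1⟩, by simp⟩⟩

namespace IsLocalAt

variable (hr : IsLocalAt r A K)

include hr

/-- The image of `G` fixes `K`. -/
lemma apply_eq {x : ℚbar} (hx : x ∈ K) (g : G) : r g x = x :=
  apply_eq_of_mem_decGrp (hr.range_le g) hx

/-- A unit is fixed by `G` exactly when the decomposition group over `K` fixes it. -/
lemma fixed_iff (x : QU) :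
    (∀ g, unitsRep r g x = x) ↔ ∀ h ∈ decGrp A K, h (uval x) = uval x := by
  refine ⟨fun hx h hh => ?_, fun hx g => uval_injective (hx _ (hr.range_le g))⟩
  obtain ⟨N, hN, hNx⟩ := exists_level_fix (Set.finite_singleton (uval x))
  obtain ⟨g, hg⟩ := hr.dense h hh N hN
  have h1 := hNx _ hg _ rfl
  rw [AlgEquiv.mul_apply, ← uval_unitsRep, hx g] at h1
  conv_lhs => rw [← h1]
  exact h.apply_symm_apply _

/-- Units of `K` as fixed units. -/
def kq : Additive (K : Type)ˣ →+ H0 (unitsRep r) where
  toFun a := ⟨Additive.ofMul (Units.map (K.val : K →* ℚbar) (Additive.toMul a)),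
    mem_ker_d₀.mpr fun g => uval_injective (hr.apply_eq (Subtype.prop _) g)⟩
  map_zero' := Subtype.ext (uval_injective (by simp [uval]))
  map_add' a b := Subtype.ext (uval_injective (by simp [uval]))

/-- The value of the fixed unit attached to an element of `K`. -/
@[simp] lemma uval_kq (a : Additive (K : Type)ˣ) :
    uval (hr.kq a).1 = (((Additive.toMul a : (K : Type)ˣ) : K) : ℚbar) := rfl

variable [FiniteDimensional ℚ K] {p : ℕ} [hp : Fact p.Prime] {ℓ : ℕ}

variable (p) in
/-- The Kummer map on `K`. -/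
def kumK : Additive (K : Type)ˣ →+ H1 (glev r) (charRep (cycHom p r)) := (kum p r).comp hr.kq

/-- Every class in `H¹(μ_p)` is the Kummer class of an element of `K`. -/
theorem kumK_surjective (hℓ : ℓ.Prime) (hA : A.LiesOverPrime ℓ) :
    Function.Surjective (hr.kumK p) := by
  intro c
  obtain ⟨x, rfl⟩ := kum_surjective c
  obtain ⟨y, z, hy, hz, hxyz⟩ :=
    exists_mem_add_nsmul (p := p) hℓ hA ((hr.fixed_iff x.1).mp fun g => H0_fixed x g)
  set a : Additive (K : Type)ˣ := Additive.ofMul
    (Units.mk0 (⟨uval y, hy⟩ : K) fun h => uval_ne_zero y (congrArg Subtype.val h))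
  refine ⟨a, ?_⟩
  have e : x = hr.kq a + p • ⟨z, mem_ker_d₀.mpr ((hr.fixed_iff z).mpr hz)⟩ :=
    Subtype.ext (hxyz.trans (congrArg (· + p • z) (uval_injective rfl)))
  rw [e, map_add, kum_eq_zero_iff.mpr ⟨_, rfl⟩, add_zero]
  rfl

/-- The Kummer class of an element of `K` vanishes exactly for local `p`-th powers. -/
theorem kumK_eq_zero_iff (hℓ : ℓ.Prime) (hA : A.LiesOverPrime ℓ) {ζ : K}
    (hζ : IsPrimitiveRoot ζ p) (a : Additive (K : Type)ˣ) :
    hr.kumK p a = 0 ↔ Additive.toMul a ∈ localPowers p ζ (plBelow K hℓ hA) := by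
  rw [mem_localPowers_iff hℓ hA hζ, kumK, AddMonoidHom.comp_apply, kum_eq_zero_iff]
  constructor
  · rintro ⟨z, hz⟩
    exact ⟨z.1, (hr.fixed_iff z.1).mp fun g => H0_fixed z g,
      congrArg uval (congrArg Subtype.val hz :)⟩
  · rintro ⟨z, hz, hza⟩
    exact ⟨⟨z, mem_ker_d₀.mpr ((hr.fixed_iff z).mpr hz)⟩, Subtype.ext (uval_injective hza)⟩

omit [FiniteDimensional ℚ K] in
/-- Over a field with the `p`-th roots of unity the cyclotomic character is trivial. -/
lemma cycHom_eq_one {ζ : K} (hζ : IsPrimitiveRoot ζ p) (g : G) : cycHom p r g = 1 := by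
  have hz : IsPrimitiveRoot ((ζ : K) : ℚbar) p :=
    hζ.map_of_injective (f := K.val) Subtype.val_injective
  obtain ⟨a, ha⟩ := exists_zpw_eq (p := p) (x := ofVal _ (hz.ne_zero hp.out.ne_zero))
    (uval_injective (by rw [uval_nsmul, uval_ofVal, hz.pow_eq_one, uval_zero]))
  have ha0 : a ≠ 0 := fun h => hz.ne_one hp.out.one_lt (by
    rw [← uval_ofVal ((ζ : K) : ℚbar) (hz.ne_zero hp.out.ne_zero), ← ha, h, map_zero, uval_zero])
  have h1 : unitsRep r g (zpw p a) = zpw p a := uval_injective (by
    rw [uval_unitsRep, ha, uval_ofVal]; exact hr.apply_eq (ζ : K).2 g)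
  rw [unitsRep_zpw] at h1
  have h2 : ((cycHom p r g : ZMod p)) * a = a := by simpa using zpw_injective h1
  exact Units.ext ((mul_eq_right₀ ha0).mp h2)

end IsLocalAt

/-! ### The symbol -/

variable {p : ℕ} [hp : Fact p.Prime]

/-- With trivial character, multiplication pairs `μ_p` with itself into `μ_p`. -/
lemma mulPairing_trivial (hχ : ∀ g, cycHom p r g = 1) :
    IsPairing (charRep (cycHom p r)) (charRep (cycHom p r)) (charRep (cycHom p r))
      (LinearMap.mul (ZMod p) (ZMod p)) := fun g a b => by simp [hχ g]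

/-- The symbol: the cup product on `H¹(μ_p)` when the character is trivial. -/
def lsym (hχ : ∀ g, cycHom p r g = 1) :
    H1 (glev r) (charRep (cycHom p r)) →ₗ[ZMod p] H1 (glev r) (charRep (cycHom p r)) →ₗ[ZMod p]
      H2 (glev r) (charRep (cycHom p r)) :=
  cup11 (mulPairing_trivial hχ) (isSmooth_charRep (charSmooth_cycHom r))
    (isSmooth_charRep (charSmooth_cycHom r))

/-- The symbol is skew-symmetric. -/
lemma lsym_skew (hχ : ∀ g, cycHom p r g = 1) (x y : H1 (glev r) (charRep (cycHom p r))) :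
    lsym hχ x y = -lsym hχ y x := by
  have hf : (LinearMap.mul (ZMod p) (ZMod p)).flip = LinearMap.mul (ZMod p) (ZMod p) :=
    LinearMap.ext fun a => LinearMap.ext fun b => mul_comm b a
  obtain ⟨f, rfl⟩ := cl₁_surjective x
  obtain ⟨f', rfl⟩ := cl₁_surjective y
  have e := cupZ_comm (mulPairing_trivial hχ) (isSmooth_charRep (charSmooth_cycHom r))
    (isSmooth_charRep (charSmooth_cycHom r)) f f'
  refine e.trans ?_
  congr 1
  simp only [hf]
  rfl

/-- A cocycle with values in `μ_p` as a homomorphism. -/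
def toZHom (hχ : ∀ g, cycHom p r g = 1) (f : Z1 (glev r) (charRep (cycHom p r))) : ZHom p r :=
  ⟨f.1, f.2.1, funext₂ fun g h => by
    have := congrFun (congrFun f.2.2 g) h
    simpa [hχ g] using this⟩

/-- The values of the homomorphism attached to a cocycle. -/
@[simp] lemma toZHom_apply (hχ : ∀ g, cycHom p r g = 1)
    (f : Z1 (glev r) (charRep (cycHom p r))) (g : G) : (toZHom hχ f).1 g = f.1 g := rfl

/-- The cup product with the homomorphism of a cocycle is the symbol. -/
lemma cycCup_toZHom (hχ : ∀ g, cycHom p r g = 1) (f : Z1 (glev r) (charRep (cycHom p r)))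
    (b : H0 (unitsRep r)) : cycCup (toZHom hχ f) b = lsym hχ (kum p r b)
      (cl₁ (glev r) (charRep (cycHom p r)) f) := by
  obtain ⟨β, hβ⟩ := exists_root p b.1
  rw [cycCup_eq _ b hβ, kum_root b hβ, lsym, cup11_cl₁]
  change cl₂ (glev r) (charRep (cycHom p r)) _ = cl₂ (glev r) (charRep (cycHom p r)) _
  refine congrArg _ (Subtype.ext (funext₂ fun g g' => ?_))
  simp [hχ g]

/-- An automorphism fixing `K` and a generator fixes the generated field. -/
lemma apply_eq_of_mem_adjoin {g : Γℚ} (hg : ∀ x ∈ K, g x = x) {α : ℚbar} (hα : g α = α) {x : ℚbar}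
    (hx : x ∈ IntermediateField.adjoin K {α}) : g x = x := by
  induction hx using IntermediateField.adjoin_induction K with
  | mem x hx => rw [Set.mem_singleton_iff.mp hx, hα]
  | algebraMap x => exact hg _ x.2
  | add x y _ _ hx hy => rw [map_add, hx, hy]
  | inv x _ hx => rw [map_inv₀, hx]
  | mul x y _ _ hx hy => rw [map_mul, hx, hy]

/-- The field generated by a `p`-th root of a non-power. -/
theorem kummerField_data [FiniteDimensional ℚ K] {ζ : K} (hζ : IsPrimitiveRoot ζ p)
    {α : QU} {a' : K} (hαp : uval α ^ p = (a' : ℚbar)) (hanp : ∀ x : K, x ^ p ≠ a') :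
    NumberField (IntermediateField.adjoin K {uval α}) ∧
      IsGalois K (IntermediateField.adjoin K {uval α}) ∧
      Module.finrank K (IntermediateField.adjoin K {uval α}) = p := by
  -- the extension
  set F : IntermediateField K ℚbar := IntermediateField.adjoin K {uval α}
  have hαF : uval α ∈ F := IntermediateField.mem_adjoin_simple_self K _
  have hint : IsIntegral K (uval α) :=
    IsIntegral.of_pow hp.out.pos (by rw [hαp]; exact isIntegral_algebraMap (x := a'))
  have : FiniteDimensional K F := IntermediateField.adjoin.finiteDimensional hint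
  have : NumberField F := NumberField.of_module_finite K F
  have hαK : uval α ^ p = algebraMap K ℚbar a' := hαp
  have hirr : Irreducible (Polynomial.X ^ p - Polynomial.C a') :=
    X_pow_sub_C_irreducible_of_prime hp.out hanp
  have hF : Module.finrank K F = p := by
    rw [IntermediateField.adjoin.finrank hint,
      ← minpoly.eq_of_irreducible_of_monic hirr (by simp [hαK])
        (Polynomial.monic_X_pow_sub_C a' hp.out.ne_zero), Polynomial.natDegree_X_pow_sub_C]
  have : IsAlgClosure K ℚbar := ⟨inferInstance, Algebra.IsAlgebraic.tower_top (K := ℚ) K⟩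
  have : Normal K ℚbar := IsAlgClosure.normal K ℚbar
  have : Normal K F := by
    rw [IntermediateField.normal_iff_forall_map_le']
    intro τ
    rw [IntermediateField.adjoin_map, IntermediateField.adjoin_le_iff]
    rintro _ ⟨_, rfl, rfl⟩
    have hζb : IsPrimitiveRoot (algebraMap K ℚbar ζ) p :=
      hζ.map_of_injective (algebraMap K ℚbar).injective
    obtain ⟨i, -, hi⟩ := hζb.eq_pow_of_pow_eq_one (show (τ (uval α) / uval α) ^ p = 1 by
      rw [div_pow, ← map_pow, hαK, AlgEquiv.commutes, div_self]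
      exact (_root_.map_ne_zero _).mpr fun h0 => hanp 0 (by rw [h0, zero_pow hp.out.ne_zero]))
    rw [eq_div_iff (uval_ne_zero α)] at hi
    change τ (uval α) ∈ F
    rw [← hi]
    exact mul_mem (pow_mem (F.algebraMap_mem ζ) i) hαF
  exact ⟨inferInstance, ⟨⟩, hF⟩

/-- A nonzero homomorphism to `ℤ/p` takes the value `1`. -/
lemma exists_zhom_eq_one (ψ : ZHom p r) (h : ψ.1 ≠ 0) : ∃ g, ψ.1 g = 1 := by
  obtain ⟨g, hg⟩ := Function.ne_iff.mp h
  exact ⟨g ^ ((ψ.1 g)⁻¹).val, by rw [triv_pow, ZMod.natCast_zmod_val, inv_mul_cancel₀ hg]⟩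

/-- The kernel of the homomorphism of a root fixes exactly the root. -/
lemma mem_homKer_rootCocycle_iff (hχ : ∀ g, cycHom p r g = 1) {α : QU} (hα : IsRoot p r α) (g : G) :
    g ∈ homKer (toZHom hχ (rootCocycle hα)) ↔ r g (uval α) = uval α := by
  rw [mem_homKer, toZHom_apply, ← zpw_injective.eq_iff, map_zero, zpw_rootCocycle, d₀_apply,
    sub_eq_zero, ← uval_injective.eq_iff, uval_unitsRep]

/-- The sum over a set of representatives of `G / ker ψ` of an element fixed by `ker ψ` is fixed. -/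
lemma sum_pow_homKer_fixed {ψ : ZHom p r} {g₀ : G} (hψ : ψ.1 g₀ = 1) {z : QU}
    (hz : ∀ h ∈ homKer ψ, unitsRep r h z = z) (g : G) :
    unitsRep r g (∑ k ∈ Finset.range p, unitsRep r (g₀ ^ k) z) =
      ∑ k ∈ Finset.range p, unitsRep r (g₀ ^ k) z := by
  have hh := hpart_mem hψ g
  rw [map_sum]
  set n := (ψ.1 g).val
  have e1 : ∀ k, unitsRep r g (unitsRep r (g₀ ^ k) z) = unitsRep r (g₀ ^ (n + k)) z := fun k => by
    have e2 : g * g₀ ^ k = g₀ ^ (n + k) * ((g₀ ^ k)⁻¹ * ((g₀ ^ n)⁻¹ * g) * g₀ ^ k) := by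
      rw [pow_add]; group
    rw [← Module.End.mul_apply, ← map_mul, e2, map_mul, Module.End.mul_apply,
      hz _ (conj_mem_homKer hh _)]
  simp only [e1]
  have hper : ∀ k, unitsRep r (g₀ ^ (p + k)) z = unitsRep r (g₀ ^ k) z := fun k => by
    rw [add_comm, pow_add, map_mul, Module.End.mul_apply, hz _ pow_mem_homKer]
  clear e1 hh
  induction n with
  | zero => simp
  | succ m ih =>
    rw [← ih]
    have hs1 := Finset.sum_range_succ (fun k => unitsRep r (g₀ ^ (m + k)) z) p
    have hs2 := Finset.sum_range_succ' (fun k => unitsRep r (g₀ ^ (m + k)) z) p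
    rw [hs1, add_zero, show g₀ ^ (m + p) = g₀ ^ (p + m) by rw [add_comm], hper m] at hs2
    rw [add_left_inj] at hs2
    rw [hs2]
    exact Finset.sum_congr rfl fun k _ => by rw [add_right_comm, add_assoc]

namespace IsLocalAt

section Extension

variable (hr : IsLocalAt r A K) {α : ℚbar}

include hr

/-- A number fixed by the elements of `G` fixing `α` is fixed by the decomposition group over
`K(α)`. -/
lemma fixed_adjoin {x : ℚbar} (hx : ∀ g, r g α = α → r g x = x) {h : Γℚ}
    (hh : h ∈ decGrp A ((IntermediateField.adjoin K {α}).restrictScalars ℚ)) : h x = x := by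
  obtain ⟨N, hN, hNy⟩ := exists_level_fix ((Set.finite_singleton x).insert α)
  have hhK : h ∈ decGrp A K := ⟨hh.1, (IntermediateField.mem_fixingSubgroup_iff K h).mpr
    fun y hy => apply_eq_of_mem_decGrp hh
      ((IntermediateField.adjoin K {α}).algebraMap_mem ⟨y, hy⟩ :)⟩
  obtain ⟨g, hg⟩ := hr.dense h hhK N hN
  have key : ∀ y, y ∈ ({α, x} : Set ℚbar) → r g y = h y := fun y hy => by
    have h1 := congrArg h (hNy _ hg y hy)
    rwa [AlgEquiv.mul_apply, show h (h⁻¹ (r g y)) = r g y from h.apply_symm_apply _] at h1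
  rw [← key _ (Set.mem_insert_of_mem _ rfl), hx g]
  exact (key _ (Set.mem_insert _ _)).trans
    (apply_eq_of_mem_decGrp hh (IntermediateField.mem_adjoin_simple_self K α))

/-- An element of `G` fixing `α` lies in the decomposition group over `K(α)`. -/
lemma mem_decGrp_adjoin {g : G} (hg : r g α = α) :
    r g ∈ decGrp A ((IntermediateField.adjoin K {α}).restrictScalars ℚ) :=
  ⟨(hr.range_le g).1, (IntermediateField.mem_fixingSubgroup_iff _ _).mpr fun x hx => by
    exact apply_eq_of_mem_adjoin (fun a ha => hr.apply_eq ha g) hg hx⟩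

/-- An element of `G` restricts to an automorphism of a normal extension of `K`. -/
lemma exists_restrictPow_eq (F : IntermediateField K ℚbar) [Normal K F] (g : G) :
    ∃ σ : F ≃ₐ[K] F, ∀ (k : ℕ) (y : F), (((σ ^ k) y : F) : ℚbar) = r (g ^ k) (y : ℚbar) := by
  let σK : ℚbar ≃ₐ[K] ℚbar :=
    AlgEquiv.ofRingEquiv (f := (r g).toRingEquiv) fun x => hr.apply_eq x.2 g
  refine ⟨AlgEquiv.restrictNormalHom F σK, fun k y => ?_⟩
  induction k with
  | zero => rw [pow_zero, pow_zero, map_one]; rfl
  | succ k ih =>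
    rw [pow_succ', pow_succ', map_mul, AlgEquiv.mul_apply, AlgEquiv.mul_apply]
    refine (AlgEquiv.restrictNormal_commutes σK F _).trans ?_
    change r g _ = _
    rw [← ih]
    rfl

/-- An extension of degree `p` in which an element of `G` acts nontrivially is non-split at the
place below `A`. -/
lemma isNonsplit_plBelow [FiniteDimensional ℚ K] {ℓ : ℕ} (hℓ : ℓ.Prime) (hA : A.LiesOverPrime ℓ)
    {F : IntermediateField K ℚbar} [NumberField F] [IsGalois K F]
    (hF : Module.finrank K F = p) {g : G} {σ : F ≃ₐ[K] F} (hσ1 : σ ≠ 1)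
    (hσ : ∀ y : F, ((σ y : F) : ℚbar) = r g (y : ℚbar)) : IsNonsplit σ (plBelow K hℓ hA) := by
  have : FiniteDimensional K F := Module.finite_of_finrank_pos (by rw [hF]; exact hp.out.pos)
  let F' : IntermediateField ℚ ℚbar := F.restrictScalars ℚ
  have : FiniteDimensional ℚ F' := (inferInstance : FiniteDimensional ℚ F)
  let w : Pl F := plBelow F' hℓ hA
  have hwv : plUnder K w = plBelow K hℓ hA := by
    refine HeightOneSpectrum.ext (SetLike.ext fun x => ?_)
    change algebraMap (𝓞 K) (𝓞 F) x ∈ primeBelow F' A ↔ x ∈ primeBelow K A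
    rfl
  rw [← hwv]
  refine IsNonsplit.of_smul_eq hF hσ1 (HeightOneSpectrum.ext (SetLike.ext fun x => ?_))
  rw [smul_asIdeal, Ideal.mem_pointwise_smul_iff_inv_smul_mem]
  change algebraMap (𝓞 F) (𝓞 ℚbar) (σ⁻¹ • x) ∈ primeOf A ↔
    algebraMap (𝓞 F) (𝓞 ℚbar) x ∈ primeOf A
  have hd : (r g) • primeOf A = primeOf A :=
    (mem_decompositionSubgroup_iff hℓ hA _).mp (hr.range_le g).1
  conv_rhs => rw [← hd, Ideal.mem_pointwise_smul_iff_inv_smul_mem]
  refine iff_of_eq (congrArg (· ∈ primeOf A) (RingOfIntegers.ext ?_))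
  have h := hσ (σ⁻¹ (x : F))
  rw [← AlgEquiv.mul_apply, mul_inv_cancel, AlgEquiv.one_apply] at h
  change ((σ⁻¹ (x : F) : F) : ℚbar) = (r g)⁻¹ ((x : F) : ℚbar)
  rw [h]
  exact ((r g).symm_apply_apply _).symm

omit hr in
/-- The sum of the translates of a unit of `F` is its norm. -/
lemma uval_sum_pow_eq_norm [FiniteDimensional ℚ K] {F : IntermediateField K ℚbar} [NumberField F]
    [IsGalois K F]
    (hF : Module.finrank K F = p) {g : G} {σ : F ≃ₐ[K] F} (hσ1 : σ ≠ 1)
    (hσ : ∀ (k : ℕ) (y : F), (((σ ^ k) y : F) : ℚbar) = r (g ^ k) (y : ℚbar))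
    (y : F) (hy : (y : ℚbar) ≠ 0) :
    uval (∑ k ∈ Finset.range p, unitsRep r (g ^ k) (ofVal (y : ℚbar) hy)) =
      ((Algebra.norm K y : K) : ℚbar) := by
  have : FiniteDimensional K F := Module.finite_of_finrank_pos (by rw [hF]; exact hp.out.pos)
  have e := congrArg F.val (algebraMap_norm_eq_prod_pow hF hσ1 y)
  rw [map_prod] at e
  simp only [IntermediateField.coe_val, hσ] at e
  change _ = algebraMap K ℚbar (Algebra.norm K y)
  refine Eq.trans ?_ e.symm
  clear e
  induction Finset.range p using Finset.induction with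
  | empty => simp
  | insert k s hk ih => rw [Finset.sum_insert hk, Finset.prod_insert hk, uval_add, ih,
      uval_unitsRep, uval_ofVal]

end Extension

variable (hr : IsLocalAt r A K) [FiniteDimensional ℚ K] {ℓ : ℕ} (hℓ : ℓ.Prime)
  (hA : A.LiesOverPrime ℓ) {ζ : K} (hζ : IsPrimitiveRoot ζ p)

include hr hℓ hA hζ

/-- At a place the group `H¹(μ_p)` is finite. -/
theorem finite_H1 : Finite (H1 (glev r) (charRep (cycHom p r))) := by
  set v := plBelow K hℓ hA
  have hidx : (localPowers p ζ v).index ≠ 0 := by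
    rw [index_localPowers hζ]
    exact mul_ne_zero (mul_ne_zero hp.out.ne_zero hp.out.ne_zero)
      (pow_ne_zero _ (Ideal.absNorm_eq_zero_iff.not.mpr v.ne_bot))
  have : (localPowers p ζ v).FiniteIndex := ⟨hidx⟩
  have : Finite ((K : Type)ˣ ⧸ localPowers p ζ v) := Subgroup.finite_quotient_of_finiteIndex
  refine Finite.of_surjective
    (fun q : (K : Type)ˣ ⧸ localPowers p ζ v => hr.kumK p (Additive.ofMul q.out)) fun x => ?_
  obtain ⟨a, rfl⟩ := hr.kumK_surjective hℓ hA x
  refine ⟨QuotientGroup.mk (Additive.toMul a), ?_⟩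
  obtain ⟨⟨l, hl⟩, e⟩ := QuotientGroup.mk_out_eq_mul (localPowers p ζ v) (Additive.toMul a)
  simp only [e, ofMul_mul, ofMul_toMul, map_add,
    (hr.kumK_eq_zero_iff hℓ hA hζ (Additive.ofMul l)).mpr hl, add_zero]

/-- At a place the group `H¹(μ_p)` is not zero. -/
theorem exists_ne_zero_H1 : ∃ x : H1 (glev r) (charRep (cycHom p r)), x ≠ 0 := by
  set v := plBelow K hℓ hA
  have hne : localPowers p ζ v ≠ ⊤ := fun h => by
    have h1 := index_localPowers hζ (v := v)
    rw [h, Subgroup.index_top] at h1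
    have := Nat.eq_one_of_mul_eq_one_right (Nat.eq_one_of_mul_eq_one_right h1.symm)
    exact hp.out.ne_one this
  obtain ⟨a, -, ha⟩ := SetLike.exists_of_lt hne.lt_top
  exact ⟨hr.kumK p (Additive.ofMul a), fun h => ha ((hr.kumK_eq_zero_iff hℓ hA hζ _).mp h)⟩

/-- **The norm residue symbol** of the extension by a root of a nontrivial local class. -/
theorem kummerField_localNorms (a : Additive (K : Type)ˣ) (ha : hr.kumK p a ≠ 0)
    {α : QU} (hα : p • α = (hr.kq a).1)
    [NumberField (IntermediateField.adjoin K {uval α})]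
    [IsGalois K (IntermediateField.adjoin K {uval α})]
    (hF : Module.finrank K (IntermediateField.adjoin K {uval α}) = p) :
    (∀ τ₀ : IntermediateField.adjoin K {uval α} ≃ₐ[K] IntermediateField.adjoin K {uval α},
      IsNonsplit τ₀ (plBelow K hℓ hA)) ∧
      ∀ b, lsym (hr.cycHom_eq_one hζ) (hr.kumK p b) (hr.kumK p a) = 0 ↔ Additive.toMul b ∈
        localNorms p ζ (IntermediateField.adjoin K {uval α}) (plBelow K hℓ hA) := by
  classical
  set F : IntermediateField K ℚbar := IntermediateField.adjoin K {uval α}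
  have hαF : uval α ∈ F := IntermediateField.mem_adjoin_simple_self K _
  -- the cocycle and a generator
  set f := rootCocycle (r := r) (isRoot_of_eq (p := p) (hr.kq a) hα)
  have hfa : hr.kumK p a = cl₁ (glev r) (charRep (cycHom p r)) f := kum_root _ hα
  set ψ := toZHom (hr.cycHom_eq_one hζ) f
  have hker : ∀ g, g ∈ homKer ψ ↔ r g (uval α) = uval α := mem_homKer_rootCocycle_iff _ _
  obtain ⟨g₀, hψ0⟩ := exists_zhom_eq_one ψ fun h =>
    ha (hfa.trans (cl₁_eq_zero.mpr ⟨0, by rw [map_zero]; exact h.symm⟩))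
  obtain ⟨σ, hσpow⟩ := hr.exists_restrictPow_eq F g₀
  have hσapp : ∀ y : F, ((σ y : F) : ℚbar) = r g₀ (y : ℚbar) := by simpa using hσpow 1
  have hσ1 : σ ≠ 1 := fun h => by
    have h1 := hσapp ⟨_, hαF⟩
    rw [h] at h1
    have h2' := (hker g₀).mpr h1.symm
    rw [mem_homKer, hψ0] at h2'
    exact one_ne_zero h2'
  refine ⟨fun τ₀ w hw => ?_, fun b => ?_⟩
  · obtain ⟨i, -, hi⟩ := exists_eq_generator_pow hF hσ1 τ₀
    rw [← hi]
    exact pow_smul_eq_self (hr.isNonsplit_plBelow hℓ hA hF hσ1 hσapp w hw) i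
  rw [hfa, show hr.kumK p b = kum p r (hr.kq b) from rfl, ← cycCup_toZHom,
    cycCup_eq_zero_iff ψ hψ0]
  have hnorm := uval_sum_pow_eq_norm hF hσ1 hσpow
  constructor
  · rintro ⟨y, hy, hyb⟩
    have : FiniteDimensional ℚ (F.restrictScalars ℚ) :=
      (inferInstance : FiniteDimensional ℚ F)
    -- approximate: `y` is an element of `F` plus `p • z`, and `p • z` sums to a local power
    obtain ⟨y', z, hy', hz, hyz⟩ := exists_mem_add_nsmul (p := p) hℓ hA
      (x := y) fun h hh => hr.fixed_adjoin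
        (fun g hg => congrArg uval (hy g ((hker g).mpr hg))) hh
    set y'F : F := ⟨uval y', hy'⟩
    have hy'0 : y'F ≠ 0 := fun h => uval_ne_zero y' (congrArg Subtype.val h)
    set Z : QU := ∑ k ∈ Finset.range p, unitsRep r (g₀ ^ k) z with hZ
    have hZfix : ∀ g, unitsRep r g Z = Z := sum_pow_homKer_fixed hψ0 fun g hg =>
      uval_injective (hz _ (hr.mem_decGrp_adjoin ((hker g).mp hg)))
    refine mem_localNorms.mpr ⟨Units.mk0 y'F hy'0,
      Additive.toMul b / Units.mk0 (Algebra.norm K y'F) (Algebra.norm_ne_zero_iff.mpr hy'0), ?_, ?_⟩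
    · refine (mem_localPowers_iff hℓ hA hζ _).mpr ⟨Z, (hr.fixed_iff Z).mp hZfix, ?_⟩
      have e := congrArg uval hyb
      rw [hyz] at e
      simp only [map_add, map_nsmul, Finset.sum_add_distrib, uval_add, hr.uval_kq] at e
      rw [Finset.sum_nsmul, ← hZ,
        show uval (∑ k ∈ Finset.range p, unitsRep r (g₀ ^ k) y') = ((Algebra.norm K y'F : K) : ℚbar)
          from (congrArg (fun q => uval (∑ k ∈ Finset.range p, unitsRep r (g₀ ^ k) q))
            (uval_injective rfl : y' = ofVal (y'F : ℚbar) (uval_ne_zero y'))).trans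
              (hnorm y'F (uval_ne_zero y'))] at e
      rw [Units.val_div_eq_div_val, Units.val_mk0, IntermediateField.coe_div, ← e,
        mul_div_cancel_left₀]
      exact fun h => Algebra.norm_ne_zero_iff.mpr hy'0 (Subtype.ext h)
    · rw [Units.val_mk0, Units.val_div_eq_div_val, Units.val_mk0,
        mul_div_cancel₀ _ (Algebra.norm_ne_zero_iff.mpr hy'0)]
  · intro hb
    obtain ⟨y, l, hl, hyl⟩ := mem_localNorms.mp hb
    obtain ⟨z, hz, hzl⟩ := (mem_localPowers_iff hℓ hA hζ l).mp hl
    have hy0 : ((y : F) : ℚbar) ≠ 0 := fun h => y.ne_zero (Subtype.ext h)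
    refine ⟨ofVal _ hy0 + z, fun g hg => ?_, uval_injective ?_⟩
    · rw [map_add, (hr.fixed_iff z).mpr hz g]
      congr 1
      refine uval_injective ?_
      rw [uval_unitsRep, uval_ofVal]
      exact apply_eq_of_mem_adjoin (fun a ha => hr.apply_eq ha g) ((hker g).mp hg) (y : F).2
    · simp only [map_add, Finset.sum_add_distrib, uval_add, hnorm (y : F) hy0,
        (hr.fixed_iff z).mpr hz, Finset.sum_const, Finset.card_range, hzl, hr.uval_kq, hyl]
      rfl

/-- The norm residue symbol: the subgroup of norms has index `p`. -/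
theorem exists_localNorms (h2 : 2 < p) (a : Additive (K : Type)ˣ)
    (ha : hr.kumK p a ≠ 0) :
    ∃ N : Subgroup (K : Type)ˣ, N.index = p ∧ localPowers p ζ (plBelow K hℓ hA) ≤ N ∧
      ∀ b, lsym (hr.cycHom_eq_one hζ) (hr.kumK p b) (hr.kumK p a) = 0 ↔ Additive.toMul b ∈ N := by
  obtain ⟨α, hα⟩ := exists_root p (hr.kq a).1
  have hαp : uval α ^ p = ((((Additive.toMul a : (K : Type)ˣ) : K)) : ℚbar) := by
    rw [← uval_nsmul, hα, hr.uval_kq]
  have hanp : ∀ x : K, x ^ p ≠ ((Additive.toMul a : (K : Type)ˣ) : K) := by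
    intro x hx
    have hx0 : x ≠ 0 := fun h => (Additive.toMul a).ne_zero (by
      rw [← hx, h, zero_pow hp.out.ne_zero])
    refine ha ((hr.kumK_eq_zero_iff hℓ hA hζ a).mpr ?_)
    convert pow_mem_localPowers (p := p) (ζ := ζ) (plBelow K hℓ hA) (Units.mk0 x hx0)
    exact Units.ext hx.symm
  obtain ⟨hnf, hgal, hF⟩ := kummerField_data hζ hαp hanp
  obtain ⟨σ, hσ⟩ : ∃ σ : IntermediateField.adjoin K {uval α} ≃ₐ[K]
      IntermediateField.adjoin K {uval α}, σ ≠ 1 := by
    have : Nontrivial (IntermediateField.adjoin K {uval α} ≃ₐ[K]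
        IntermediateField.adjoin K {uval α}) := Finite.one_lt_card_iff_nontrivial.mp (by
      rw [IsGalois.card_aut_eq_finrank, hF]; exact hp.out.one_lt)
    exact exists_ne 1
  obtain ⟨hns, hN⟩ := hr.kummerField_localNorms hℓ hA hζ a ha hα hF
  exact ⟨_, index_localNorms hF hσ hζ h2 (hns σ), le_sup_right, hN⟩

end IsLocalAt

end Fermat.CFT
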