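import Fermat.Agent.CFT.Coh.Tower
import Fermat.Agent.CFT.Local.Symbol

/-!
# The symbol tower of a decomposition group

`IsLocalAt.symbolTower` is the input of `CFT/Coh/Tower`; `Data` adds nontriviality to get local
duality.
-/

set_option autoImplicit false

noncomputable section

open ExtCitation Fermat.CFT.Coh
open scoped Pointwise

namespace Fermat.CFT

attribute [local instance] Subgroup.fintypeQuotientOfFiniteIndex

local notation "ℚbar" => AlgebraicClosure ℚ
local notation "Γℚ" => (AlgebraicClosure ℚ ≃ₐ[ℚ] AlgebraicClosure ℚ)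

variable {G : Type} [Group G] {r : G →* Γℚ} {A : ValuationSubring ℚbar}
  {K : IntermediateField ℚ ℚbar}

/-- The image of an open subgroup is dense in a decomposition group over a larger field. -/
theorem IsLocalAt.exists_restrict (hr : IsLocalAt r A K) [FiniteDimensional ℚ K] {G' : Type}
    [Group G'] (f : G' →* G) (hf : ContainsLevel (glev r) f.range) {s : Set ℚbar} (hs : s.Finite)
    (hsfix : ∀ g, ∀ x ∈ s, r (f g) x = x) :
    ∃ K' : IntermediateField ℚ ℚbar, FiniteDimensional ℚ K' ∧ K ≤ K' ∧ s ⊆ K' ∧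
      IsLocalAt (r.comp f) A K' := by
  obtain ⟨_, ⟨_, ⟨E₀, hE₀, -, -, rfl⟩, rfl⟩, hle⟩ := hf
  set E₁ : IntermediateField ℚ ℚbar := K ⊔ E₀ with hE₁
  obtain ⟨E, hE, hEn, hE₁E, hsE⟩ := exists_field_containing E₁ hs
  set X : Subgroup Γℚ := f.range.map r with hX
  set K' : IntermediateField ℚ ℚbar := E ⊓ IntermediateField.fixedField X with hK'
  have : FiniteDimensional ℚ K' := FiniteDimensional.of_injective
    (IntermediateField.inclusion (inf_le_left : K' ≤ E)).toLinearMap
    (IntermediateField.inclusion (inf_le_left : K' ≤ E)).injective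
  have hXle : X ≤ decGrp A K := by
    rintro _ ⟨_, ⟨g, rfl⟩, rfl⟩
    exact hr.range_le (f g)
  have hKK' : K ≤ K' := le_inf (le_sup_left.trans hE₁E) fun x hx g => by
    exact apply_eq_of_mem_decGrp (hXle g.2) hx
  have hsK' : s ⊆ K' := fun x hx => ⟨hsE hx, by
    rintro ⟨_, _, ⟨g, rfl⟩, rfl⟩
    exact hsfix g x hx⟩
  refine ⟨K', inferInstance, hKK', hsK', fun g => ⟨(hr.range_le (f g)).1, ?_⟩, fun x hx N hN => ?_⟩
  · change r (f g) ∈ K'.fixingSubgroup
    rw [IntermediateField.mem_fixingSubgroup_iff]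
    exact fun y hy => hy.2 ⟨r (f g), _, ⟨g, rfl⟩, rfl⟩
  -- the restriction of `x` to `E` comes from `f`
  have hxK : x ∈ decGrp A K := ⟨hx.1, IntermediateField.fixingSubgroup_le hKK' hx.2⟩
  have hxX : AlgEquiv.restrictNormalHom E x ∈ X.map (AlgEquiv.restrictNormalHom E) := by
    rw [← IntermediateField.fixingSubgroup_fixedField (X.map (AlgEquiv.restrictNormalHom E)),
      IntermediateField.mem_fixingSubgroup_iff]
    intro y hy
    refine Subtype.ext ((AlgEquiv.restrictNormal_commutes x E y).trans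
      (apply_eq_of_mem_decGrp hx ⟨y.2, fun g => ?_⟩))
    have h1 := hy ⟨_, Subgroup.mem_map_of_mem _ g.2⟩
    exact (AlgEquiv.restrictNormal_commutes (g : Γℚ) E y).symm.trans (congrArg Subtype.val h1)
  obtain ⟨_, ⟨_, ⟨g₀, rfl⟩, rfl⟩, hg₀⟩ := hxX
  have hxg₀ : x⁻¹ * r (f g₀) ∈ E.fixingSubgroup := by
    rw [← restrict_eq_one_iff, map_mul, map_inv, hg₀, inv_mul_cancel]
  obtain ⟨N', hN', i1, i2⟩ := (galLevels Set.univ).exists_le N E.fixingSubgroup hN
    ⟨E, hE, hEn, unramOutside_univ E, rfl⟩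
  obtain ⟨g, hg⟩ := hr.dense x hxK N' hN'
  obtain ⟨g', hg'⟩ : g ∈ f.range := by
    have h1 : (r (f g₀))⁻¹ * r g ∈ E.fixingSubgroup := by
      have := mul_mem (inv_mem hxg₀) (i2 hg)
      rwa [mul_inv_rev, inv_inv, mul_assoc, mul_inv_cancel_left] at this
    have h2 : (f g₀)⁻¹ * g ∈ f.range := hle (show r ((f g₀)⁻¹ * g) ∈ E₀.fixingSubgroup by
      rw [map_mul, map_inv]
      exact IntermediateField.fixingSubgroup_le (le_sup_right.trans hE₁E) h1)
    have := f.range.mul_mem ⟨g₀, rfl⟩ h2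
    rwa [mul_inv_cancel_left] at this
  exact ⟨g', by rw [MonoidHom.comp_apply, hg']; exact i1 hg⟩

/-! ### The symbol data -/

variable {p : ℕ} [hp : Fact p.Prime]

/-- With trivial character the identity maps `μ_p` to the trivial line. -/
lemma charRep_triv_equivariant (hχ : ∀ g, cycHom p r g = 1) :
    IsEquivariant (charRep (cycHom p r)) (triv p G) (MonoidHom.id G)
      (LinearMap.id : ZMod p →ₗ[ZMod p] ZMod p) := fun g a => by simp [hχ g]

/-- With trivial character the identity maps the trivial line to `μ_p`. -/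
lemma triv_charRep_equivariant (hχ : ∀ g, cycHom p r g = 1) :
    IsEquivariant (triv p G) (charRep (cycHom p r)) (MonoidHom.id G)
      (LinearMap.id : ZMod p →ₗ[ZMod p] ZMod p) := fun g a => by simp [hχ g]

/-- The symbol transported to the trivial line. -/
lemma map₂_sym (hχ : ∀ g, cycHom p r g = 1) (y x : H1 (glev r) (triv p G)) :
    map₂ (IsLevelsHom.id _) (triv_charRep_equivariant hχ) (sym p (glev r) y x) =
      lsym hχ (map₁ (IsLevelsHom.id _) (triv_charRep_equivariant hχ) y)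
        (map₁ (IsLevelsHom.id _) (triv_charRep_equivariant hχ) x) := by
  obtain ⟨f, rfl⟩ := cl₁_surjective x
  obtain ⟨f', rfl⟩ := cl₁_surjective y
  refine cl₂_congr fun g g' => ?_
  simp [hχ g]

/-- The subgroup of norms attached to a nonzero class. -/
theorem IsLocalAt.exists_normSubgroup (hr : IsLocalAt r A K) [FiniteDimensional ℚ K] {ℓ : ℕ}
    (hℓ : ℓ.Prime) (hA : A.LiesOverPrime ℓ) {ζ : K} (hζ : IsPrimitiveRoot ζ p) (h2 : 2 < p)
    (hχ : ∀ g, cycHom p r g = 1) {x : H1 (glev r) (triv p G)} (hx : x ≠ 0) :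
    ∃ N : Subgroup (K : Type)ˣ, N.index = p ∧ localPowers p ζ (plBelow K hℓ hA) ≤ N ∧
      ∀ b, lsym hχ (hr.kumK p b) (map₁ (IsLevelsHom.id _) (triv_charRep_equivariant hχ) x) = 0 ↔
        Additive.toMul b ∈ N := by
  have hb₁ : Function.Bijective (map₁ (IsLevelsHom.id (glev r))
      (triv_charRep_equivariant (p := p) hχ)) := map₁_bijective _ Function.bijective_id
  obtain ⟨a, ha⟩ := hr.kumK_surjective hℓ hA (map₁ _ (triv_charRep_equivariant hχ) x)
  have ha0 : hr.kumK p a ≠ 0 := fun h => hx (hb₁.injective (by rw [← ha, h, map_zero]))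
  obtain ⟨N, h1, h2', h3⟩ := hr.exists_localNorms hℓ hA hζ h2 a ha0
  exact ⟨N, h1, h2', fun b => by rw [← ha]; exact h3 b⟩

/-- The symbols with a fixed class form a line. -/
theorem IsLocalAt.sym_proportional (hr : IsLocalAt r A K) [FiniteDimensional ℚ K] {ℓ : ℕ}
    (hℓ : ℓ.Prime) (hA : A.LiesOverPrime ℓ) {ζ : K} (hζ : IsPrimitiveRoot ζ p) (h2 : 2 < p)
    (x y y' : H1 (glev r) (triv p G)) (hy : sym p (glev r) y x ≠ 0) :
    ∃ c : ZMod p, sym p (glev r) y' x = c • sym p (glev r) y x := by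
  have hχ := hr.cycHom_eq_one (p := p) hζ
  set e₁ := map₁ (IsLevelsHom.id (glev r)) (triv_charRep_equivariant (p := p) hχ) with he₁
  set e₂ := map₂ (IsLevelsHom.id (glev r)) (triv_charRep_equivariant (p := p) hχ) with he₂
  have hb₂ : Function.Bijective e₂ := map₂_bijective _ Function.bijective_id
  rcases eq_or_ne x 0 with rfl | hx
  · rw [map_zero] at hy; exact absurd rfl hy
  obtain ⟨N, hNi, -, hNx⟩ := hr.exists_normSubgroup hℓ hA hζ h2 hχ hx
  obtain ⟨b, hb⟩ := hr.kumK_surjective hℓ hA (e₁ y)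
  obtain ⟨b', hb'⟩ := hr.kumK_surjective hℓ hA (e₁ y')
  have hbN : Additive.toMul b ∉ N := fun h => hy (hb₂.injective (by
    rw [he₂, map₂_sym, map_zero, ← he₁, ← hb]; exact (hNx b).mpr h))
  set q : (K : Type)ˣ ⧸ N := QuotientGroup.mk (Additive.toMul b) with hq
  have hcard : Nat.card ((K : Type)ˣ ⧸ N) = p := by rw [← Subgroup.index_eq_card, hNi]
  have hmem := mem_zpowers_of_prime_card hcard (g := q) (g' := QuotientGroup.mk (Additive.toMul b'))
    (fun h => hbN ((QuotientGroup.eq_one_iff _).mp h))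
  obtain ⟨k, hk⟩ := hmem
  simp only at hk
  rw [hq, ← QuotientGroup.mk_zpow, QuotientGroup.eq] at hk
  refine ⟨(k : ZMod p), hb₂.injective ?_⟩
  have h0 := (hNx (-(k • b) + b')).mpr hk
  rw [← he₁, map_add, map_neg, map_zsmul, map_add, map_neg, map_zsmul, LinearMap.add_apply,
    LinearMap.neg_apply, LinearMap.smul_apply, neg_add_eq_zero, hb, hb'] at h0
  rw [map_smul, he₂, map₂_sym, map₂_sym, ← he₁, Int.cast_smul_eq_zsmul]
  exact h0.symm

/-- A class killed on the kernel of a homomorphism still dies there with values in `μ_p`. -/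
theorem zres_map₂_eq_zero_of_res₂ (hχ : ∀ g, cycHom p r g = 1) (z : Z1 (glev r) (triv p G))
    {c : H2 (glev r) (triv p G)} (hc : res₂ (glev r) (triv p G) (homKer z) c = 0) :
    zres (z : ZHom p r)
      (map₂ (IsLevelsHom.id (glev r)) (triv_charRep_equivariant (p := p) hχ) c) = 0 := by
  set ψ : ZHom p r := z
  have hj : IsLevelsHom (subLevels (glev r) (homKer z)) (glev (r.comp (homKer ψ).subtype))
      (MonoidHom.id (homKer ψ)) := by
    rintro _ ⟨_, ⟨N, hN, rfl⟩, rfl⟩
    exact ⟨_, ⟨N, hN, rfl⟩, fun x hx => hx⟩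
  have hje : IsEquivariant ((triv p G).comp (homKer z).subtype)
      (charRep (cycHom p (r.comp (homKer ψ).subtype))) (MonoidHom.id (homKer ψ))
      (LinearMap.id : ZMod p →ₗ[ZMod p] ZMod p) := fun h a => by
    change a = charRep (cycHom p r) (h : G) a
    simp [hχ (h : G)]
  have h := congrArg (map₂ hj hje) hc
  rw [map_zero] at h
  obtain ⟨w, rfl⟩ := cl₂_surjective c
  exact h

/-- A class killed on the kernel of a homomorphism is a symbol with it. -/
theorem exists_sym_eq_of_res₂ (hχ : ∀ g, cycHom p r g = 1) (z : Z1 (glev r) (triv p G))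
    (c : H2 (glev r) (triv p G)) (hz : cl₁ (glev r) (triv p G) z ≠ 0)
    (hc : res₂ (glev r) (triv p G) (homKer z) c = 0) :
    ∃ y, sym p (glev r) y (cl₁ (glev r) (triv p G) z) = c := by
  set e₁ := map₁ (IsLevelsHom.id (glev r)) (triv_charRep_equivariant (p := p) hχ) with he₁
  set e₂ := map₂ (IsLevelsHom.id (glev r)) (triv_charRep_equivariant (p := p) hχ) with he₂
  have hb₁ : Function.Bijective e₁ := map₁_bijective _ Function.bijective_id
  have hb₂ : Function.Bijective e₂ := map₂_bijective _ Function.bijective_id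
  set ψ : ZHom p r := z with hψ
  obtain ⟨σ, hσ⟩ := exists_zhom_eq_one ψ fun h =>
    hz (cl₁_eq_zero.mpr ⟨0, by rw [map_zero]; exact h.symm⟩)
  have hc' : zres ψ (e₂ c) = 0 := zres_map₂_eq_zero_of_res₂ hχ z hc
  obtain ⟨b, hb⟩ := exists_cycCup_eq ψ hσ hc'
  obtain ⟨y, hy⟩ := hb₁.surjective (kum p r b)
  refine ⟨y, hb₂.injective ?_⟩
  rw [he₂, map₂_sym hχ, ← he₁, hy, ← hb]
  obtain ⟨β, hβ⟩ := exists_root p b.1
  rw [cycCup_eq ψ b hβ, kum_root b hβ, he₁, map₁_cl₁, lsym, cup11_cl₁]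
  refine cl₂_congr fun g g' => ?_
  simp [hχ g, hψ]

/-- For an element fixed by `ker z` the sum over the cosets is the sum over the powers of a
generator. -/
lemma sum_cosetSec_eq_sum_pow (z : Z1 (glev r) (triv p G)) {σ : G} (hσ : z.1 σ = 1) {y : QU}
    (hy : ∀ h ∈ homKer z, unitsRep r h y = y) :
    ∑ q : G ⧸ homKer z, unitsRep r (cosetSec (homKer z) q) y =
      ∑ k ∈ Finset.range p, unitsRep r (σ ^ k) y := by
  set H := homKer z with hH
  have hbij : ∀ k : ℕ, unitsRep r (cosetSec H ((σ ^ k : G) : G ⧸ H)) y = unitsRep r (σ ^ k) y :=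
    fun k => by
      have hm : (σ ^ k)⁻¹ * cosetSec H ((σ ^ k : G) : G ⧸ H) ∈ H :=
        QuotientGroup.eq.mp (mk_cosetSec _).symm
      conv_lhs => rw [← mul_inv_cancel_left (σ ^ k) (cosetSec H ((σ ^ k : G) : G ⧸ H)), map_mul,
        Module.End.mul_apply, hy _ hm]
  refine (Finset.sum_bij (fun k _ => ((σ ^ k : G) : G ⧸ H)) (fun k _ => Finset.mem_univ _)
    (fun a ha a' ha' h => ?_) (fun q _ => ?_) (fun k _ => (hbij k).symm)).symm
  · rw [QuotientGroup.eq, hH, mem_homKer, triv_hom z, triv_inv z,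
      triv_pow z σ a, triv_pow z σ a', hσ, mul_one, mul_one,
      neg_add_eq_zero, ZMod.natCast_eq_natCast_iff', Nat.mod_eq_of_lt (Finset.mem_range.mp ha),
      Nat.mod_eq_of_lt (Finset.mem_range.mp ha')] at h
    exact h
  · induction q using QuotientGroup.induction_on with
    | _ g =>
      refine ⟨(z.1 g).val, Finset.mem_range.mpr (ZMod.val_lt _), ?_⟩
      rw [QuotientGroup.eq]
      exact hpart_mem (ψ := (z : ZHom p r)) hσ g

/-- The transfer of the Kummer cocycle of `θ` is the Kummer cocycle of the sum of the translates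
of `θ`. -/
lemma zpw_indSum_extend₁_rootCocycle (hχ : ∀ g, cycHom p r g = 1) {H : Subgroup G} [H.FiniteIndex]
    {θ : QU} (hθ : IsRoot p (r.comp H.subtype) θ) (g : G) :
    zpw p (indSum (ZMod p) (ZMod p) H (extend₁ H (triv p G) (rootCocycle hθ).1 g)) =
      d₀ (unitsRep r) (∑ q : G ⧸ H, unitsRep r (cosetSec H q) θ) g := by
  rw [indSum_apply, map_sum (zpw p), d₀_apply, map_sum (unitsRep r g)]
  have hterm : ∀ q : G ⧸ H, zpw p (extend₁ H (triv p G) (rootCocycle hθ).1 g q) =
      unitsRep r g (unitsRep r (cosetSec H (g⁻¹ • q)) θ) - unitsRep r (cosetSec H q) θ := by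
    intro q
    have e : zpw p (extend₁ H (triv p G) (rootCocycle hθ).1 g q) =
        unitsRep r (cosetSec H q) (zpw p ((rootCocycle hθ).1 (cosetPart H g q))) := by
      rw [unitsRep_zpw]
      simp [extend₁, hχ]
    rw [e, zpw_rootCocycle, d₀_apply, map_sub, ← Module.End.mul_apply (unitsRep r g),
      ← map_mul, ← cosetSec_mul_part, map_mul, Module.End.mul_apply]
    rfl
  simp only [hterm, Finset.sum_sub_distrib]
  congr 1
  exact Fintype.sum_equiv (MulAction.toPerm g⁻¹) _ _ fun q => rfl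

/-- The sum map from the classes of the kernel of a nonzero homomorphism is nonzero. -/
theorem IsLocalAt.exists_norm_ne (hr : IsLocalAt r A K) [FiniteDimensional ℚ K] {ℓ : ℕ}
    (hℓ : ℓ.Prime) (hA : A.LiesOverPrime ℓ) {ζ : K} (hζ : IsPrimitiveRoot ζ p) (h2 : 2 < p)
    (z : Z1 (glev r) (triv p G)) (hz : cl₁ (glev r) (triv p G) z ≠ 0) :
    ∃ Y : H1 (glev r) (indRep (homKer z) (triv p G)),
      map₁ (IsLevelsHom.id (glev r))
        (indSum_equivariant (H := homKer z) (ρ := triv p G)) Y ≠ 0 := by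
  have hχ := hr.cycHom_eq_one (p := p) hζ
  set e₁ := map₁ (IsLevelsHom.id (glev r)) (triv_charRep_equivariant (p := p) hχ) with he₁
  obtain ⟨σ, hσ⟩ := exists_zhom_eq_one (z : ZHom p r) fun h =>
    hz (cl₁_eq_zero.mpr ⟨0, by rw [map_zero]; exact h.symm⟩)
  obtain ⟨N, hNi, hlp, hNx⟩ := hr.exists_normSubgroup hℓ hA hζ h2 hχ hz
  obtain ⟨b, hbN, hblp⟩ := SetLike.exists_of_lt (lt_of_le_of_ne hlp fun h => by
    have hidx : p * p ∣ (localPowers p ζ (plBelow K hℓ hA)).index := ⟨_, index_localPowers hζ⟩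
    rw [h, hNi] at hidx
    have h3 := Nat.le_of_dvd hp.out.pos hidx
    nlinarith)
  set b₀ := hr.kq (Additive.ofMul b)
  have hcup : cycCup (z : ZHom p r) b₀ = 0 := by
    have h := (hNx (Additive.ofMul b)).mpr hbN
    obtain ⟨β, hβ⟩ := exists_root p b₀.1
    rw [show hr.kumK p (Additive.ofMul b) = kum p r b₀ from rfl, kum_root b₀ hβ, map₁_cl₁,
      lsym, cup11_cl₁] at h
    rw [cycCup_eq _ b₀ hβ, ← h]
    refine cl₂_congr fun g g' => ?_
    simp [hχ g]
  obtain ⟨y, hy, hyb⟩ := (cycCup_eq_zero_iff (z : ZHom p r) hσ b₀).mp hcup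
  obtain ⟨θ, hθ⟩ := exists_root p y
  set H := homKer z
  have hθH : IsRoot p (r.comp H.subtype) θ := fun h => by
    rw [d₀_apply, nsmul_sub, ← map_nsmul, hθ]
    exact sub_eq_zero.mpr (hy h h.2)
  have hκ : (rootCocycle hθH).1 ∈ Z1 (subLevels (glev r) H) ((triv p G).comp H.subtype) := by
    refine ⟨?_, funext₂ fun g h => ?_⟩
    · rw [subLevels, Levels.comap_comap]; exact (rootCocycle hθH).2.1
    · have := congrFun (congrFun (rootCocycle hθH).2.2 g) h
      simpa [show cycloChar p (r (g : G)) = 1 from hχ (g : G)] using this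
  refine ⟨cl₁ (glev r) (indRep H (triv p G))
    ⟨_, extend₁_mem (containsLevel_homKer z) hκ⟩, fun h0 => ?_⟩
  -- the sum is the Kummer class of the norm
  have hpΘ : p • (∑ q : G ⧸ H, unitsRep r (cosetSec H q) θ) = b₀.1 := by
    rw [← Finset.sum_nsmul, ← hyb]
    simp only [← map_nsmul, hθ]
    exact sum_cosetSec_eq_sum_pow z hσ hy
  apply fun h => hblp ((hr.kumK_eq_zero_iff hℓ hA hζ (Additive.ofMul b)).mp h)
  change kum p r b₀ = 0
  rw [kum_root b₀ hpΘ]
  have h1 := congrArg e₁ h0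
  rw [map_zero] at h1
  rw [← h1]
  refine congrArg _ (Subtype.ext (funext fun g => zpw_injective ?_))
  rw [zpw_rootCocycle]
  exact (zpw_indSum_extend₁_rootCocycle hχ hθH g).symm

/-- At a decomposition group with the roots of unity the Kummer symbols form a symbol datum. -/
theorem IsLocalAt.symbolData (hr : IsLocalAt r A K) [FiniteDimensional ℚ K] {ℓ : ℕ} (hℓ : ℓ.Prime)
    (hA : A.LiesOverPrime ℓ) {ζ : K} (hζ : IsPrimitiveRoot ζ p) (h2 : 2 < p) :
    SymbolData p (glev r) := by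
  have hχ := hr.cycHom_eq_one (p := p) hζ
  set e₁ := map₁ (IsLevelsHom.id (glev r)) (triv_charRep_equivariant (p := p) hχ) with he₁
  have hb₁ : Function.Bijective e₁ := map₁_bijective _ Function.bijective_id
  have hfin := hr.finite_H1 hℓ hA hζ
  refine ⟨Finite.of_injective e₁ hb₁.injective, ?_, fun x hx => ?_,
    hr.sym_proportional hℓ hA hζ h2, exists_sym_eq_of_res₂ hχ, hr.exists_norm_ne hℓ hA hζ h2⟩
  · obtain ⟨x, hx⟩ := hr.exists_ne_zero_H1 hℓ hA hζ
    obtain ⟨w, rfl⟩ := hb₁.surjective x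
    exact ⟨w, fun h => hx (by rw [h, map_zero])⟩
  · obtain ⟨N, hNi, -, hNx⟩ := hr.exists_normSubgroup hℓ hA hζ h2 hχ hx
    have hne : N ≠ ⊤ := fun h => hp.out.ne_one (by rw [← hNi, h, Subgroup.index_top])
    obtain ⟨b, -, hb⟩ := SetLike.exists_of_lt (lt_top_iff_ne_top.mpr hne)
    obtain ⟨y, hy⟩ := hb₁.surjective (hr.kumK p (Additive.ofMul b))
    refine ⟨y, fun h => hb ((hNx (Additive.ofMul b)).mp ?_)⟩
    rw [← hy, he₁, ← map₂_sym, h, map_zero]

/-- Every open subgroup fixing `μ_p` of a decomposition group has a symbol tower. -/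
theorem IsLocalAt.symbolTower (hr : IsLocalAt r A K) [FiniteDimensional ℚ K] {ℓ : ℕ}
    (hℓ : ℓ.Prime) (hA : A.LiesOverPrime ℓ) (h2 : 2 < p) (H : Subgroup G)
    (hH : ContainsLevel (glev r) H) (hχ : ∀ h ∈ H, cycHom p r h = 1) :
    SymbolTower p (subLevels (glev r) H) := by
  intro G' _ f hf
  rw [Levels.comap_comap, Levels.comap_comap]
  have : NeZero (p : ℚbar) := ⟨Nat.cast_ne_zero.mpr hp.out.ne_zero⟩
  have hf' : ContainsLevel (glev r) (H.subtype.comp f).range := by
    obtain ⟨_, ⟨N, hN, rfl⟩, hle⟩ := hf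
    obtain ⟨N₀, hN₀, hle₀⟩ := hH
    obtain ⟨N', hN', i1, i2⟩ := (glev r).exists_le N N₀ hN hN₀
    refine ⟨N', hN', fun x hx => ?_⟩
    obtain ⟨y, hy⟩ := hle (show (⟨x, hle₀ (i2 hx)⟩ : H) ∈ N.comap H.subtype from i1 hx)
    exact ⟨y, congrArg Subtype.val hy⟩
  obtain ⟨K', hK', -, hs, hloc⟩ := hr.exists_restrict (H.subtype.comp f) hf'
    (Set.finite_singleton (uval (zetaU p))) fun g x hx => by
      rw [Set.mem_singleton_iff] at hx
      subst hx
      have h1 : unitsRep r (H.subtype.comp f g) (zpw p 1) = zpw p 1 := by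
        rw [unitsRep_zpw]
        simp [hχ (f g : G) (f g).2]
      have h2 : zpw p (1 : ZMod p) = zetaU p := by
        have := zpw_natCast (p := p) 1
        rwa [Nat.cast_one, one_smul] at this
      rw [h2] at h1
      exact congrArg uval h1
  exact hloc.symbolData hℓ hA (ζ := ⟨_, hs rfl⟩)
    (IsPrimitiveRoot.of_map_of_injective (f := K'.val) (zetaU_spec p) Subtype.val_injective) h2

end Fermat.CFT
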